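import Mathlib
import Fermat.Prelude.Def_ModularCurve_X0ModL

/-!
# S28 / DEG / PRIME exclusion (helper21): the derivation `θ = q d/dq` on Laurent series

`theta f` multiplies the coefficient of `q ^ n` by `n`.  It is a derivation, it commutes with
coefficient maps, and `theta (f (q ^ p)) = p * (theta f) (q ^ p)`.
-/

set_option autoImplicit false

noncomputable section

namespace Fermat.Agent.S28.Deg.H21

open ModularCurve

variable {R S : Type*} [CommRing R] [CommRing S]

/-- `θ = q d/dq` on Laurent series: the coefficient of `q ^ n` is multiplied by `n`. -/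
def theta (f : LaurentSeries R) : LaurentSeries R where
  coeff n := (n : R) * f.coeff n
  isPWO_support' := f.isPWO_support.mono (fun n hn => by
    simp only [Function.mem_support, ne_eq] at hn ⊢
    intro h
    exact hn (by rw [h, mul_zero]))

@[simp]
theorem theta_coeff (f : LaurentSeries R) (n : ℤ) : (theta f).coeff n = (n : R) * f.coeff n :=
  rfl

theorem support_theta_subset (f : LaurentSeries R) : (theta f).support ⊆ f.support := by
  intro n hn
  simp only [HahnSeries.mem_support, theta_coeff, ne_eq] at hn ⊢
  intro h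
  exact hn (by rw [h, mul_zero])

@[simp]
theorem theta_zero : theta (0 : LaurentSeries R) = 0 := by
  ext n
  simp

theorem theta_add (f g : LaurentSeries R) : theta (f + g) = theta f + theta g := by
  ext n
  simp [mul_add]

theorem theta_neg (f : LaurentSeries R) : theta (-f) = -theta f := by
  ext n
  simp

theorem theta_sub (f g : LaurentSeries R) : theta (f - g) = theta f - theta g := by
  ext n
  simp [mul_sub]

/-- **Leibniz rule.** -/
theorem theta_mul (f g : LaurentSeries R) : theta (f * g) = theta f * g + f * theta g := by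
  ext a
  rw [theta_coeff, HahnSeries.coeff_add, HahnSeries.coeff_mul,
    HahnSeries.coeff_mul_left' f.isPWO_support (support_theta_subset f),
    HahnSeries.coeff_mul_right' g.isPWO_support (support_theta_subset g),
    Finset.mul_sum, ← Finset.sum_add_distrib]
  refine Finset.sum_congr rfl fun ij hij => ?_
  have h : ij.1 + ij.2 = a := (Finset.mem_antidiagonal.mp hij).2.2
  rw [theta_coeff, theta_coeff, ← h]
  push_cast
  ring

theorem theta_single (n : ℤ) (r : R) :
    theta (HahnSeries.single n r) = HahnSeries.single n ((n : R) * r) := by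
  ext m
  rw [theta_coeff]
  by_cases h : m = n
  · subst h
    rw [HahnSeries.coeff_single_same, HahnSeries.coeff_single_same]
  · rw [HahnSeries.coeff_single_of_ne h, HahnSeries.coeff_single_of_ne h, mul_zero]

@[simp]
theorem theta_C (r : R) : theta (HahnSeries.C r : LaurentSeries R) = 0 := by
  rw [HahnSeries.C_apply, theta_single]
  simp

@[simp]
theorem theta_one : theta (1 : LaurentSeries R) = 0 := by
  rw [← map_one (HahnSeries.C : R →+* LaurentSeries R)]
  exact theta_C 1

theorem theta_natCast (n : ℕ) : theta (n : LaurentSeries R) = 0 := by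
  rw [← map_natCast (HahnSeries.C : R →+* LaurentSeries R)]
  exact theta_C _

theorem theta_intCast (n : ℤ) : theta (n : LaurentSeries R) = 0 := by
  rw [← map_intCast (HahnSeries.C : R →+* LaurentSeries R)]
  exact theta_C _

theorem theta_pow (f : LaurentSeries R) (n : ℕ) :
    theta (f ^ (n + 1)) = ((n + 1 : ℕ) : LaurentSeries R) * f ^ n * theta f := by
  induction n with
  | zero => simp
  | succ n ih =>
    rw [pow_succ, theta_mul, ih]
    push_cast
    ring

/-- `θ` commutes with coefficient maps. -/
theorem coeffMap_theta (φ : R →+* S) (f : LaurentSeries R) :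
    coeffMap φ (theta f) = theta (coeffMap φ f) := by
  ext n
  simp

/-- `θ (f (q ^ p)) = p * (θ f) (q ^ p)`. -/
theorem theta_qExpand (p : ℕ) [NeZero p] (f : LaurentSeries R) :
    theta (qExpand R p f) = (p : LaurentSeries R) * qExpand R p (theta f) := by
  ext n
  rw [theta_coeff, ← map_natCast (HahnSeries.C : R →+* LaurentSeries R), HahnSeries.C_apply,
    HahnSeries.coeff_single_zero_mul]
  by_cases hn : (p : ℤ) ∣ n
  · obtain ⟨m, rfl⟩ := hn
    rw [qExpand_coeff_mul, qExpand_coeff_mul, theta_coeff]
    push_cast
    ring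
  · rw [qExpand_coeff_of_not_dvd p f hn, qExpand_coeff_of_not_dvd p _ hn, mul_zero, mul_zero]

section Field

variable {k : Type*} [Field k]

theorem theta_inv (f : LaurentSeries k) (hf : f ≠ 0) :
    theta f⁻¹ = -(theta f) * (f⁻¹) ^ 2 := by
  have h : theta (f * f⁻¹) = 0 := by rw [mul_inv_cancel₀ hf, theta_one]
  rw [theta_mul] at h
  have h2 : f * theta f⁻¹ = -(theta f * f⁻¹) := eq_neg_of_add_eq_zero_right h
  have h3 : theta f⁻¹ = f⁻¹ * (f * theta f⁻¹) := by
    rw [← mul_assoc, inv_mul_cancel₀ hf, one_mul]
  rw [h3, h2]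
  ring

theorem theta_algebraMap (c : k) : theta (algebraMap k (LaurentSeries k) c) = 0 := by
  rw [ModularCurve.algebraMap_laurentSeries_eq_single, theta_single]
  simp

/-- **Chain rule on `k(x)`**: for every `y ∈ k(x)` the derivative `θ y` is a `k(x)`-multiple of
`θ x`. -/
theorem exists_theta_eq_mul (x : LaurentSeries k) {y : LaurentSeries k}
    (hy : y ∈ IntermediateField.adjoin k {x}) :
    ∃ r ∈ IntermediateField.adjoin k {x}, theta y = r * theta x := by
  induction hy using IntermediateField.adjoin_induction with
  | mem z hz =>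
    rw [Set.mem_singleton_iff] at hz
    subst hz
    exact ⟨1, one_mem _, (one_mul _).symm⟩
  | algebraMap c => exact ⟨0, zero_mem _, by rw [theta_algebraMap, zero_mul]⟩
  | add a b ha hb iha ihb =>
    obtain ⟨r, hr, h1⟩ := iha
    obtain ⟨s, hs, h2⟩ := ihb
    exact ⟨r + s, add_mem hr hs, by rw [theta_add, h1, h2, add_mul]⟩
  | inv a ha iha =>
    obtain ⟨r, hr, h1⟩ := iha
    by_cases ha0 : a = 0
    · subst ha0
      exact ⟨0, zero_mem _, by simp⟩
    · refine ⟨-r * (a⁻¹) ^ 2, mul_mem (neg_mem hr) (pow_mem (inv_mem ha) 2), ?_⟩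
      rw [theta_inv a ha0, h1]
      ring
  | mul a b ha hb iha ihb =>
    obtain ⟨r, hr, h1⟩ := iha
    obtain ⟨s, hs, h2⟩ := ihb
    refine ⟨r * b + a * s, add_mem (mul_mem hr hb) (mul_mem ha hs), ?_⟩
    rw [theta_mul, h1, h2]
    ring

end Field

end Fermat.Agent.S28.Deg.H21
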