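import Mathlib
import Fermat.Agent.S24.H16_CardX
import Fermat.Agent.S28.Asm.Defs

/-!
# S28 / DEG / psi numerics (helper8)

`ψ(N) = [SL₂(ℤ) : Γ₀(N)] = dedekindPsi N` and the recursion
`ψ(M p) = p ψ(M)` (`p ∣ M`), `ψ(M p) = (p + 1) ψ(M)` (`p ∤ M`).
-/

set_option autoImplicit false

namespace Fermat.Agent.S28.Deg.H8

open ModularCurve

theorem psi_eq_dedekindPsi (N : ℕ) [NeZero N] : Asm.psi N = dedekindPsi N :=
  Fermat.Agent.S24.Comb.card_X N

theorem dedekindPsi_prime {p : ℕ} (hp : p.Prime) : dedekindPsi p = p + 1 := by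
  have h := Fermat.Agent.S24.Comb.h16_dedekindPsi_prime_pow hp (k := 1) Nat.one_pos
  simpa using h

theorem dedekindPsi_mul_prime_of_not_dvd {p M : ℕ} (hp : p.Prime) (h : ¬ p ∣ M) :
    dedekindPsi (M * p) = (p + 1) * dedekindPsi M := by
  have hcop : M.Coprime p := ((Nat.Prime.coprime_iff_not_dvd hp).mpr h).symm
  rw [Fermat.Agent.S24.Comb.h16_dedekindPsi_mul hcop, dedekindPsi_prime hp, mul_comm]

theorem dedekindPsi_mul_prime_of_dvd {p M : ℕ} (hp : p.Prime) (hM : M ≠ 0) (h : p ∣ M) :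
    dedekindPsi (M * p) = p * dedekindPsi M := by
  obtain ⟨a, M', hM', rfl⟩ := Nat.exists_eq_pow_mul_and_not_dvd hM p hp.ne_one
  have ha : 0 < a := by
    rcases Nat.eq_zero_or_pos a with rfl | ha
    · exfalso; apply hM'; simpa using h
    · exact ha
  have hcop : ∀ k, (p ^ k).Coprime M' := fun k =>
    Nat.Coprime.pow_left k ((Nat.Prime.coprime_iff_not_dvd hp).mpr hM')
  have e1 : p ^ a * M' * p = p ^ (a + 1) * M' := by ring
  rw [e1, Fermat.Agent.S24.Comb.h16_dedekindPsi_mul (hcop _),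
    Fermat.Agent.S24.Comb.h16_dedekindPsi_mul (hcop _),
    Fermat.Agent.S24.Comb.h16_dedekindPsi_prime_pow hp ha,
    Fermat.Agent.S24.Comb.h16_dedekindPsi_prime_pow hp (Nat.succ_pos a)]
  have e2 : p ^ (a + 1 - 1) = p * p ^ (a - 1) := by
    rw [Nat.add_sub_cancel, ← pow_succ']
    congr 1; omega
  rw [e2, pow_succ]
  ring

theorem dedekindPsi_pos' {N : ℕ} (hN : N ≠ 0) : 0 < dedekindPsi N :=
  Fermat.Agent.S24.Comb.h16_dedekindPsi_pos hN

theorem psi_pos (N : ℕ) [NeZero N] : 0 < Asm.psi N := by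
  rw [psi_eq_dedekindPsi]; exact dedekindPsi_pos' (NeZero.ne N)

theorem psi_prime (p : ℕ) [NeZero p] (hp : p.Prime) : Asm.psi p = p + 1 := by
  rw [psi_eq_dedekindPsi, dedekindPsi_prime hp]

theorem psi_mul_prime_of_not_dvd (M p : ℕ) [NeZero M] [NeZero (M * p)] (hp : p.Prime)
    (h : ¬ p ∣ M) : Asm.psi (M * p) = (p + 1) * Asm.psi M := by
  rw [psi_eq_dedekindPsi, psi_eq_dedekindPsi, dedekindPsi_mul_prime_of_not_dvd hp h]

theorem psi_mul_prime_of_dvd (M p : ℕ) [NeZero M] [NeZero (M * p)] (hp : p.Prime)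
    (h : p ∣ M) : Asm.psi (M * p) = p * Asm.psi M := by
  rw [psi_eq_dedekindPsi, psi_eq_dedekindPsi, dedekindPsi_mul_prime_of_dvd hp (NeZero.ne M) h]

end Fermat.Agent.S28.Deg.H8
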