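import Fermat.Agent.S28.Deg.H9_Prime

/-!
# S28, package DEG (helper9): assembly of `PRIME(p)`

* `ev2 Φ a b` : the value `Φ(X = a; Y = b)` of `Φ ∈ ℤ[Y][X]` in a commutative ring;
* `StModC p` : the deliverable MOD-C of package MOD (the modular equation of prime level `p`
  over `ℤ`, both relations, as identities of `q`-expansions over `ℚ`);
* `modC_field` : MOD-C reduced to any field `k` (in particular `k = ZMod ℓ`);
* `stPRIME_of_modC` : MOD-C + exclusion of `j_p ∈ k(j)` ⇒ `Asm.StPRIME p ℓ`;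
* `stPRIMEAll_of` : the deliverable `Asm.StPRIMEAll` from MOD-C and the exclusion.
-/

set_option autoImplicit false

open Polynomial IntermediateField ModularCurve

namespace Fermat.Agent.S28.Deg.H9

open Fermat.Agent.S28.Deg.H8

section ev2

variable {S T : Type*} [CommRing S] [CommRing T]

/-- `Φ(X = a; Y = b)` for `Φ ∈ ℤ[Y][X]`. -/
noncomputable def ev2 (Φ : (ℤ[X])[X]) (a b : S) : S :=
  Φ.eval₂ (Polynomial.eval₂RingHom (Int.castRingHom S) b) a

lemma ev2_hom (φ : S →+* T) (Φ : (ℤ[X])[X]) (a b : S) :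
    φ (ev2 Φ a b) = ev2 Φ (φ a) (φ b) := by
  unfold ev2
  rw [Polynomial.hom_eval₂]
  congr 1
  apply Polynomial.ringHom_ext
  · intro n
    simp
  · simp

lemma ev2_eq_eval_map (Φ : (ℤ[X])[X]) (a b : S) :
    ev2 Φ a b = (Φ.map (Polynomial.eval₂RingHom (Int.castRingHom S) b)).eval a :=
  (Polynomial.eval_map _ _).symm

end ev2

/-- `coeffMap f` is injective if `f` is. -/
lemma coeffMap_injective {R S : Type*} [CommRing R] [CommRing S] (f : R →+* S)
    (hf : Function.Injective f) : Function.Injective (coeffMap f) := by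
  intro x y h
  ext n
  apply hf
  rw [← coeffMap_coeff, ← coeffMap_coeff, h]

/-- **Deliverable MOD-C of package MOD**: the modular equation of level `p` over `ℤ`, with both
relations `Φ(j_p; j) = 0` and `Φ(j; j_p) = 0` as identities in `ℚ((q))`. -/
def StModC (p : ℕ) [NeZero p] : Prop :=
  ∃ Φ : (ℤ[X])[X], Φ.Monic ∧ Φ.natDegree = p + 1 ∧
    ev2 Φ (qExpand ℚ p (jqModC ℚ)) (jqModC ℚ) = 0 ∧
    ev2 Φ (jqModC ℚ) (qExpand ℚ p (jqModC ℚ)) = 0

/-- MOD-C with the relations in `R((q))`. -/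
def StModCIn (R : Type*) [CommRing R] (p : ℕ) [NeZero p] : Prop :=
  ∃ Φ : (ℤ[X])[X], Φ.Monic ∧ Φ.natDegree = p + 1 ∧
    ev2 Φ (qExpand R p (jqModC R)) (jqModC R) = 0 ∧
    ev2 Φ (jqModC R) (qExpand R p (jqModC R)) = 0

lemma stModC_iff (p : ℕ) [NeZero p] : StModC p ↔ StModCIn ℚ p := Iff.rfl

/-- Transport of MOD-C along a ring homomorphism of coefficients. -/
lemma StModCIn.map {R S : Type*} [CommRing R] [CommRing S] (f : R →+* S) {p : ℕ} [NeZero p]
    (h : StModCIn R p) : StModCIn S p := by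
  obtain ⟨Φ, hm, hd, h1, h2⟩ := h
  refine ⟨Φ, hm, hd, ?_, ?_⟩
  · have := congrArg (coeffMap f) h1
    rwa [ev2_hom, coeffMap_qExpand, coeffMap_jqModC, map_zero] at this
  · have := congrArg (coeffMap f) h2
    rwa [ev2_hom, coeffMap_qExpand, coeffMap_jqModC, map_zero] at this

/-- Descent of MOD-C along an injective ring homomorphism of coefficients. -/
lemma StModCIn.of_injective {R S : Type*} [CommRing R] [CommRing S] (f : R →+* S)
    (hf : Function.Injective f) {p : ℕ} [NeZero p] (h : StModCIn S p) : StModCIn R p := by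
  obtain ⟨Φ, hm, hd, h1, h2⟩ := h
  refine ⟨Φ, hm, hd, ?_, ?_⟩
  · apply coeffMap_injective f hf
    rw [ev2_hom, coeffMap_qExpand, coeffMap_jqModC, map_zero]
    exact h1
  · apply coeffMap_injective f hf
    rw [ev2_hom, coeffMap_qExpand, coeffMap_jqModC, map_zero]
    exact h2

/-- MOD-C over `ℤ`. -/
lemma StModC.int {p : ℕ} [NeZero p] (h : StModC p) : StModCIn ℤ p :=
  StModCIn.of_injective (Int.castRingHom ℚ) Int.cast_injective h

/-- MOD-C over any commutative ring, in particular over `ZMod ℓ`. -/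
lemma StModC.to (R : Type*) [CommRing R] {p : ℕ} [NeZero p] (h : StModC p) : StModCIn R p :=
  StModCIn.map (Int.castRingHom R) h.int

section asm

variable (k : Type) [Field k] (p : ℕ) [NeZero p]

/-- Values of integer polynomials at `y` lie in `k(y)`. -/
lemma eval₂_int_mem_adjoin (y : LaurentSeries k) (f : ℤ[X]) :
    Polynomial.eval₂RingHom (Int.castRingHom (LaurentSeries k)) y f ∈ k⟮y⟯ := by
  rw [Polynomial.coe_eval₂RingHom, Polynomial.eval₂_eq_sum_range]
  refine sum_mem fun i _ => ?_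
  exact mul_mem (intCast_mem _ _) (pow_mem (mem_adjoin_simple_self k y) i)

/-- **`PRIME(p)` from MOD-C and the exclusion of `j_p ∈ k(j)`**, in `relfinrank` form. -/
theorem prime_of_modC (hp : p.Prime) (hC : StModCIn k p)
    (hex : qExpand k p (jqModC k) ∉ IntermediateField.adjoin k {jqModC k}) :
    relfinrank (jbField k) (modularFunctionFieldFullC k p) = p + 1 ∧
      relfinrank (jbdField k p) (modularFunctionFieldFullC k p) = p + 1 := by
  obtain ⟨Φ, hm, hd, h1, h2⟩ := hC
  set y := qExpand k p (jqModC k) with hy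
  set P : (LaurentSeries k)[X] :=
    Φ.map (Polynomial.eval₂RingHom (Int.castRingHom (LaurentSeries k)) y) with hP
  have hPm : P.Monic := hm.map _
  have hPd : P.natDegree = p + 1 := by rw [hP, hm.natDegree_map, hd]
  have hPB : ∀ i, P.coeff i ∈ jbdField k p := fun i => by
    rw [hP, coeff_map]
    exact eval₂_int_mem_adjoin k y _
  have hPx : P.eval (jqModC k) = 0 := by
    rw [hP, ← ev2_eq_eval_map]; exact h2
  have hPz : P.eval (qExpand k p y) = 0 := by
    rw [hP, ← ev2_eq_eval_map]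
    have := congrArg (qExpand k p) h1
    rwa [ev2_hom, map_zero] at this
  rcases prime_dichotomy k p hp hPm hPd hPB hPx hPz with h | h
  · exact absurd h hex
  · exact h

/-- **`PRIME(p)` from MOD-C and the exclusion**, interface form. -/
theorem stPRIME_of_modC (ℓ : ℕ) [Fact ℓ.Prime] (hp : p.Prime) (hC : StModC p)
    (hex : qExpand (ZMod ℓ) p (jqModC (ZMod ℓ)) ∉
      IntermediateField.adjoin (ZMod ℓ) {jqModC (ZMod ℓ)}) :
    Asm.StPRIME p ℓ := by
  obtain ⟨h1, h2⟩ := prime_of_modC (ZMod ℓ) p hp (hC.to (ZMod ℓ)) hex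
  exact StPRIME_of_relfinrank p ℓ h1 h2

end asm

/-- **The deliverable `StPRIMEAll`** from MOD-C (all primes) and the exclusion of
`j_p ∈ k(j)` (all primes `p ≠ ℓ`). -/
theorem stPRIMEAll_of
    (hC : ∀ (p : ℕ) [NeZero p], p.Prime → StModC p)
    (hex : ∀ (p : ℕ) [NeZero p] (ℓ : ℕ) [Fact ℓ.Prime], p.Prime → p ≠ ℓ →
      qExpand (ZMod ℓ) p (jqModC (ZMod ℓ)) ∉
        IntermediateField.adjoin (ZMod ℓ) {jqModC (ZMod ℓ)}) :
    Asm.StPRIMEAll := by
  intro p _ ℓ _ hp hpl
  exact stPRIME_of_modC p ℓ hp (hC p hp) (hex p ℓ hp hpl)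

end Fermat.Agent.S28.Deg.H9
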