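import Mathlib
import Fermat.Prelude.Def_ModularCurve_X0ModL
import Fermat.Prelude.Def_ModularCurve_ModularUnit
import Fermat.Agent.S28.Mod.H14_PolyJ
import Fermat.Agent.S28.Deg.H21_Theta

/-!
# S28 / DEG / PRIME exclusion (helper21): `j(q^p) ∉ k(j(q))` by the chain rule

If `j_p = R(j)` with `R ∈ k(X)` then `p (θ j)(q^p) = θ j_p = R'(j) θ j`; the level-one identity
`(θ j)^6 = j^4 (j - 1728)^3 Δ` then puts the modular unit `v = Δ(q^p)/Δ(q)` in `k(j)`.  As `v`
is integral over `k[j]`, it is a polynomial in `j`; but `v ∈ q^(p-1) k[[q]]` has neither a pole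
nor a constant term: contradiction.
-/

set_option autoImplicit false

noncomputable section

namespace Fermat.Agent.S28.Deg.H21

open ModularCurve Polynomial

section Defs

variable (R : Type*) [CommRing R]

/-- `Δ = q ∏ (1 - q^n)^24` over any commutative ring. -/
def deltaL : LaurentSeries R :=
  HahnSeries.single (1 : ℤ) 1 *
    HahnSeries.ofPowerSeries ℤ R (dedekindEtaUnit.map (Int.castRingHom R))

/-- (I3): `(θ j)^6 = j^4 (j - 1728)^3 Δ`. -/
def StI3 : Prop :=
  theta (jqModC R) ^ 6 = jqModC R ^ 4 * (jqModC R - 1728) ^ 3 * deltaL R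

end Defs

section Transport

variable {R S : Type*} [CommRing R] [CommRing S]

theorem coeffMap_deltaL (φ : R →+* S) : coeffMap φ (deltaL R) = deltaL S := by
  rw [deltaL, deltaL, map_mul, coeffMap_single, map_one, coeffMap_ofPowerSeries,
    ← RingHom.comp_apply (PowerSeries.map φ) (PowerSeries.map (Int.castRingHom R)),
    ← PowerSeries.map_comp, RingHom.ext_int (φ.comp (Int.castRingHom R)) (Int.castRingHom S)]

theorem deltaL_rat : deltaL ℚ = deltaSeries := rfl

/-- (I3) is stable under coefficient maps. -/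
theorem StI3.map (φ : R →+* S) (h : StI3 R) : StI3 S := by
  have h' := congrArg (coeffMap φ) h
  rw [map_pow, coeffMap_theta, coeffMap_jqModC, map_mul, map_mul, map_pow, map_pow, map_sub,
    coeffMap_jqModC, coeffMap_deltaL, map_ofNat] at h'
  exact h'

theorem StI3.of_int (h : StI3 ℤ) : StI3 R := h.map (Int.castRingHom R)

/-- (I3) descends along injective coefficient maps. -/
theorem StI3.of_injective (φ : R →+* S) (hφ : Function.Injective φ) (h : StI3 S) : StI3 R := by
  have hinj : Function.Injective (coeffMap φ) := by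
    intro x y hxy
    ext n
    exact hφ (by simpa using congrArg (fun z => z.coeff n) hxy)
  apply hinj
  rw [map_pow, coeffMap_theta, coeffMap_jqModC, map_mul, map_mul, map_pow, map_pow, map_sub,
    coeffMap_jqModC, coeffMap_deltaL, map_ofNat]
  exact h

end Transport

section Field

variable (k : Type*) [Field k]

theorem coeff_deltaL_one : (deltaL k).coeff 1 = 1 := by
  have h := HahnSeries.coeff_single_mul_add (r := (1 : k))
    (x := HahnSeries.ofPowerSeries ℤ k (dedekindEtaUnit.map (Int.castRingHom k)))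
    (a := (0 : ℤ)) (b := (1 : ℤ))
  rw [zero_add, one_mul] at h
  rw [deltaL, h, show (0 : ℤ) = ((0 : ℕ) : ℤ) from rfl, HahnSeries.ofPowerSeries_apply_coeff,
    PowerSeries.coeff_map, PowerSeries.coeff_zero_eq_constantCoeff, constantCoeff_dedekindEtaUnit]
  simp

theorem coeff_deltaL_of_lt {n : ℤ} (hn : n < 1) : (deltaL k).coeff n = 0 := by
  have h := HahnSeries.coeff_single_mul_add (r := (1 : k))
    (x := HahnSeries.ofPowerSeries ℤ k (dedekindEtaUnit.map (Int.castRingHom k)))
    (a := n - 1) (b := (1 : ℤ))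
  rw [one_mul, sub_add_cancel] at h
  rw [deltaL, h, ofPowerSeries_coeff_of_neg _ (by omega)]

theorem deltaL_ne_zero : deltaL k ≠ 0 := by
  intro h
  have := coeff_deltaL_one k
  rw [h] at this
  simp at this

theorem order_deltaL : (deltaL k).order = 1 := by
  refine le_antisymm (HahnSeries.order_le_of_coeff_ne_zero ?_) ?_
  · rw [coeff_deltaL_one]; exact one_ne_zero
  · by_contra hlt
    rw [not_le] at hlt
    exact deltaL_ne_zero k (HahnSeries.coeff_order_eq_zero.mp (coeff_deltaL_of_lt k hlt))

variable (p : ℕ) [NeZero p]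

/-- The modular unit `v = Δ(q^p)/Δ(q)`. -/
def vL : LaurentSeries k := qExpand k p (deltaL k) * (deltaL k)⁻¹

theorem vL_rat : vL ℚ p = (modularUnitSeries p)⁻¹ := by
  rw [vL, modularUnitSeries, mul_inv, inv_inv, mul_comm]
  rfl

theorem qExpand_deltaL_ne_zero : qExpand k p (deltaL k) ≠ 0 := fun h =>
  deltaL_ne_zero k (qExpand_injective p (by rw [h, map_zero]))

theorem vL_ne_zero : vL k p ≠ 0 :=
  mul_ne_zero (qExpand_deltaL_ne_zero k p) (inv_ne_zero (deltaL_ne_zero k))

theorem vL_mul_deltaL : vL k p * deltaL k = qExpand k p (deltaL k) := by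
  rw [vL, mul_assoc, inv_mul_cancel₀ (deltaL_ne_zero k), mul_one]

theorem order_qExpand (f : LaurentSeries k) : (qExpand k p f).order = (p : ℤ) * f.order := by
  by_cases hf : f = 0
  · subst hf; simp
  have hne : qExpand k p f ≠ 0 := fun h => hf (qExpand_injective p (by rw [h, map_zero]))
  have hp : (0 : ℤ) < (p : ℤ) := by exact_mod_cast Nat.pos_of_ne_zero (NeZero.ne p)
  refine le_antisymm (HahnSeries.order_le_of_coeff_ne_zero ?_) ?_
  · rw [qExpand_coeff_mul]
    exact fun h => hf (HahnSeries.coeff_order_eq_zero.mp h)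
  · by_contra hlt
    rw [not_le] at hlt
    have h0 : (qExpand k p f).coeff (qExpand k p f).order ≠ 0 :=
      fun h => hne (HahnSeries.coeff_order_eq_zero.mp h)
    by_cases hd : (p : ℤ) ∣ (qExpand k p f).order
    · obtain ⟨m, hm⟩ := hd
      rw [hm, qExpand_coeff_mul] at h0
      rw [hm] at hlt
      exact h0 (HahnSeries.coeff_eq_zero_of_lt_order (lt_of_mul_lt_mul_left hlt hp.le))
    · exact h0 (qExpand_coeff_of_not_dvd p f hd)

theorem order_vL : (vL k p).order = (p : ℤ) - 1 := by
  have h := congrArg HahnSeries.order (vL_mul_deltaL k p)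
  rw [HahnSeries.order_mul (vL_ne_zero k p) (deltaL_ne_zero k), order_qExpand, order_deltaL] at h
  omega

theorem coeff_vL_of_nonpos (hp2 : 2 ≤ p) {n : ℤ} (hn : n ≤ 0) : (vL k p).coeff n = 0 := by
  refine HahnSeries.coeff_eq_zero_of_lt_order ?_
  rw [order_vL]
  have : (2 : ℤ) ≤ p := by exact_mod_cast hp2
  omega

/-- `v` is integral over `k[j]`. -/
def StVInt : Prop := IsIntegral (Algebra.adjoin k {jqModC k}) (vL k p)

theorem transcendental_jqModC : Transcendental k (jqModC k) := by
  rw [transcendental_iff_injective]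
  exact Fermat.Agent.S28.Mod.PolyJ.aeval_jqModC_injective

theorem qExpand_jqModC_ne_zero : qExpand k p (jqModC k) ≠ 0 := fun h =>
  jqModC_ne_zero_of_nontrivial k (qExpand_injective p (by rw [h, map_zero]))

theorem coeff_qExpand_jqModC : (qExpand k p (jqModC k)).coeff (-(p : ℤ)) = 1 := by
  have h := qExpand_coeff_mul (R := k) p (jqModC k) (-1)
  rw [mul_neg_one] at h
  rw [h, coeff_jqModC_neg_one]

theorem qExpand_jqModC_sub_ne_zero (c : ℕ) : qExpand k p (jqModC k) - (c : LaurentSeries k) ≠ 0 := by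
  intro h
  have h1 := congrArg (fun z => z.coeff (-(p : ℤ))) h
  have hp : (p : ℤ) ≠ 0 := by exact_mod_cast NeZero.ne p
  simp only [HahnSeries.coeff_sub, HahnSeries.coeff_zero] at h1
  rw [coeff_qExpand_jqModC, ← map_natCast (HahnSeries.C : k →+* LaurentSeries k),
    HahnSeries.C_apply, HahnSeries.coeff_single_of_ne (by simpa using hp), sub_zero] at h1
  exact one_ne_zero h1

open scoped IntermediateField.algebraAdjoinAdjoin in
/-- An element of `k(j)` which is integral over `k[j]` is a polynomial in `j`. -/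
theorem exists_aeval_eq_of_isIntegral {v : LaurentSeries k}
    (hv : v ∈ IntermediateField.adjoin k {jqModC k})
    (hint : IsIntegral (Algebra.adjoin k {jqModC k}) v) :
    ∃ S : k[X], aeval (jqModC k) S = v := by
  have : IsIntegrallyClosed (Algebra.adjoin k {jqModC k}) :=
    IsIntegrallyClosed.of_equiv
      (Polynomial.algEquivOfTranscendental k (jqModC k) (transcendental_jqModC k)).toRingEquiv
  have hint' : IsIntegral (Algebra.adjoin k {jqModC k})
      (⟨v, hv⟩ : IntermediateField.adjoin k {jqModC k}) := by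
    have hinj : Function.Injective
        (IsScalarTower.toAlgHom (Algebra.adjoin k {jqModC k})
          (IntermediateField.adjoin k {jqModC k}) (LaurentSeries k)) :=
      fun a b hab => Subtype.ext hab
    exact (isIntegral_algHom_iff _ hinj).mp hint
  obtain ⟨y, hy⟩ := IsIntegrallyClosed.isIntegral_iff.mp hint'
  obtain ⟨S, hS⟩ := Algebra.adjoin_mem_exists_aeval _ _ y.2
  refine ⟨S, ?_⟩
  rw [hS]
  exact congrArg Subtype.val hy

/-- **PRIME exclusion.** If `p ≥ 2` is invertible in `k`, (I3) holds over `k` and the modular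
unit `v = Δ(q^p)/Δ(q)` is integral over `k[j]`, then `j(q^p) ∉ k(j(q))`. -/
theorem excl (hp2 : 2 ≤ p) (hpk : (p : k) ≠ 0) (h3 : StI3 k) (hv : StVInt k p) :
    qExpand k p (jqModC k) ∉ IntermediateField.adjoin k {jqModC k} := by
  intro hmem
  have hjmem : jqModC k ∈ IntermediateField.adjoin k {jqModC k} :=
    IntermediateField.subset_adjoin k _ rfl
  -- chain rule
  obtain ⟨r, hr, hrθ⟩ := exists_theta_eq_mul (jqModC k) hmem
  have h1 : (p : LaurentSeries k) * qExpand k p (theta (jqModC k)) = r * theta (jqModC k) := by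
    rw [← theta_qExpand]; exact hrθ
  have hV : qExpand k p (theta (jqModC k)) ^ 6 =
      qExpand k p (jqModC k) ^ 4 * (qExpand k p (jqModC k) - 1728) ^ 3 *
        qExpand k p (deltaL k) := by
    rw [← map_pow, h3, map_mul, map_mul, map_pow, map_pow, map_sub, map_ofNat]
  have h2 : (p : LaurentSeries k) ^ 6 *
      (qExpand k p (jqModC k) ^ 4 * (qExpand k p (jqModC k) - 1728) ^ 3 *
        qExpand k p (deltaL k)) =
      r ^ 6 * (jqModC k ^ 4 * (jqModC k - 1728) ^ 3 * deltaL k) := by
    rw [← hV, ← h3, ← mul_pow, ← mul_pow, h1]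
  have hpL : (p : LaurentSeries k) ≠ 0 := by
    rw [← map_natCast (HahnSeries.C : k →+* LaurentSeries k)]
    exact fun h => hpk (HahnSeries.C_injective (by rw [h, map_zero]))
  have h1728 : (1728 : LaurentSeries k) = ((1728 : ℕ) : LaurentSeries k) := by norm_num
  have hG : qExpand k p (jqModC k) ^ 4 * (qExpand k p (jqModC k) - 1728) ^ 3 ≠ 0 := by
    refine mul_ne_zero (pow_ne_zero _ (qExpand_jqModC_ne_zero k p)) (pow_ne_zero _ ?_)
    rw [h1728]
    exact qExpand_jqModC_sub_ne_zero k p 1728
  have hD : (p : LaurentSeries k) ^ 6 *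
      (qExpand k p (jqModC k) ^ 4 * (qExpand k p (jqModC k) - 1728) ^ 3) ≠ 0 :=
    mul_ne_zero (pow_ne_zero _ hpL) hG
  have hveq : vL k p = r ^ 6 * (jqModC k ^ 4 * (jqModC k - 1728) ^ 3) *
      ((p : LaurentSeries k) ^ 6 *
        (qExpand k p (jqModC k) ^ 4 * (qExpand k p (jqModC k) - 1728) ^ 3))⁻¹ := by
    rw [eq_mul_inv_iff_mul_eq₀ hD, vL]
    have hΔ := deltaL_ne_zero k
    field_simp
    linear_combination h2
  have hmem1728 : (1728 : LaurentSeries k) ∈ IntermediateField.adjoin k {jqModC k} := by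
    rw [h1728]; exact natCast_mem _ _
  have hvmem : vL k p ∈ IntermediateField.adjoin k {jqModC k} := by
    rw [hveq]
    exact mul_mem (mul_mem (pow_mem hr 6)
      (mul_mem (pow_mem hjmem 4) (pow_mem (sub_mem hjmem hmem1728) 3)))
      (inv_mem (mul_mem (pow_mem (natCast_mem _ _) 6)
        (mul_mem (pow_mem hmem 4) (pow_mem (sub_mem hmem hmem1728) 3))))
  -- `v` is a polynomial in `j`
  obtain ⟨S, hS⟩ := exists_aeval_eq_of_isIntegral k hvmem hv
  -- compare the coefficients at `-deg S`
  have hc := Fermat.Agent.S28.Mod.PolyJ.coeff_aeval_jqModC S S.natDegree le_rfl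
  rw [hS, coeff_vL_of_nonpos k p hp2 (by omega)] at hc
  have hS0 : S = 0 := leadingCoeff_eq_zero.mp hc.symm
  rw [hS0, map_zero] at hS
  exact vL_ne_zero k p hS.symm

end Field

end Fermat.Agent.S28.Deg.H21
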