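import Mathlib
import Fermat.Prelude.Def_ModularCurve_X0

/-!
# S28 / DEG / T1 core (helper8)

For a field `k`, `p ≥ 1` and a Laurent series `x ≠ 0` whose order is prime to `p`, the powers
`1, x, …, x^(p-1)` are linearly independent over every subfield of `k((q^p))`
(= the range of `qExpand k p`).
-/

set_option autoImplicit false

noncomputable section

namespace Fermat.Agent.S28.Deg.H8

open HahnSeries ModularCurve

variable {k : Type*} [Field k] (p : ℕ) [NeZero p]

/-- The order of `f(q^p)` is `p` times the order of `f`. -/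
theorem order_qExpand (f : LaurentSeries k) :
    (qExpand k p f).order = (p : ℤ) * f.order := by
  rcases eq_or_ne f 0 with rfl | hf
  · simp
  have hp : (0 : ℤ) < (p : ℤ) := by exact_mod_cast Nat.pos_of_ne_zero (NeZero.ne p)
  have hcoeff : (qExpand k p f).coeff ((p : ℤ) * f.order) ≠ 0 := by
    rw [qExpand_coeff_mul]
    exact fun h => hf (HahnSeries.coeff_order_eq_zero.mp h)
  have hne : qExpand k p f ≠ 0 := HahnSeries.ne_zero_of_coeff_ne_zero hcoeff
  refine le_antisymm (HahnSeries.order_le_of_coeff_ne_zero hcoeff) ?_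
  by_contra hlt
  rw [not_le] at hlt
  refine hne (HahnSeries.coeff_order_eq_zero.mp ?_)
  by_cases hdvd : (p : ℤ) ∣ (qExpand k p f).order
  · obtain ⟨j, hj⟩ := hdvd
    rw [hj, qExpand_coeff_mul]
    refine HahnSeries.coeff_eq_zero_of_lt_order ?_
    rw [hj] at hlt
    exact lt_of_mul_lt_mul_left hlt hp.le
  · exact qExpand_coeff_of_not_dvd p f hdvd

/-- Elements of `k((q^p))` have order divisible by `p`. -/
theorem dvd_order_of_mem_fieldRange {c : LaurentSeries k}
    (hc : c ∈ (qExpand k p).fieldRange) : (p : ℤ) ∣ c.order := by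
  obtain ⟨f, rfl⟩ := hc
  rw [order_qExpand]
  exact dvd_mul_right _ _

/-- A finite sum of Laurent series whose nonzero terms have pairwise distinct orders, with at
least one nonzero term, is nonzero. -/
theorem sum_ne_zero_of_order_injOn {ι : Type*} (s : Finset ι) (t : ι → LaurentSeries k)
    (hinj : ∀ i ∈ s, ∀ j ∈ s, t i ≠ 0 → t j ≠ 0 → (t i).order = (t j).order → i = j)
    (hex : ∃ i ∈ s, t i ≠ 0) : ∑ i ∈ s, t i ≠ 0 := by
  classical
  have hne : (s.filter fun i => t i ≠ 0).Nonempty := by
    obtain ⟨i, hi, hti⟩ := hex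
    exact ⟨i, Finset.mem_filter.mpr ⟨hi, hti⟩⟩
  obtain ⟨i₀, hi₀, hmin⟩ := Finset.exists_min_image _ (fun i => (t i).order) hne
  rw [Finset.mem_filter] at hi₀
  intro hsum
  have hc : (∑ i ∈ s, t i).coeff (t i₀).order = (t i₀).coeff (t i₀).order := by
    rw [HahnSeries.coeff_sum]
    refine Finset.sum_eq_single_of_mem i₀ hi₀.1 ?_
    intro j hj hji
    by_cases htj : t j = 0
    · rw [htj]; rfl
    · refine HahnSeries.coeff_eq_zero_of_lt_order ?_
      have hle := hmin j (Finset.mem_filter.mpr ⟨hj, htj⟩)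
      refine lt_of_le_of_ne hle ?_
      intro heq
      exact hji (hinj j hj i₀ hi₀.1 htj hi₀.2 heq.symm)
  rw [hsum] at hc
  exact hi₀.2 (HahnSeries.coeff_order_eq_zero.mp hc.symm)

/-- **T1 core**: if the order of `x ≠ 0` is prime to `p`, the powers `x^0, …, x^(p-1)` are
linearly independent over any subfield of `k((q^p))`. -/
theorem linearIndependent_pow_of_le_fieldRange (E : Subfield (LaurentSeries k))
    (hE : E ≤ (qExpand k p).fieldRange) (x : LaurentSeries k) (hx : x ≠ 0)
    (hord : IsCoprime x.order (p : ℤ)) :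
    LinearIndependent E (fun i : Fin p => x ^ (i : ℕ)) := by
  classical
  rw [Fintype.linearIndependent_iff]
  intro g hg
  by_contra hcon
  rw [not_forall] at hcon
  obtain ⟨i₁, hi₁⟩ := hcon
  have hterm : ∀ i : Fin p, g i • x ^ (i : ℕ) = (g i : LaurentSeries k) * x ^ (i : ℕ) :=
    fun i => rfl
  have hord_term : ∀ i : Fin p, g i ≠ 0 →
      ((g i : LaurentSeries k) * x ^ (i : ℕ)).order = (g i : LaurentSeries k).order
        + (i : ℕ) * x.order := by
    intro i hgi
    have hgi' : (g i : LaurentSeries k) ≠ 0 := fun h => hgi (Subtype.ext h)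
    rw [HahnSeries.order_mul hgi' (pow_ne_zero _ hx), HahnSeries.order_pow, nsmul_eq_mul]
  refine sum_ne_zero_of_order_injOn Finset.univ (fun i => g i • x ^ (i : ℕ)) ?_ ?_ hg
  · intro i _ j _ hti htj hij
    have hgi : g i ≠ 0 := fun h => hti (by simp [h])
    have hgj : g j ≠ 0 := fun h => htj (by simp [h])
    simp only [hterm] at hij
    rw [hord_term i hgi, hord_term j hgj] at hij
    obtain ⟨a, ha⟩ := dvd_order_of_mem_fieldRange p (hE (g i).2)
    obtain ⟨b, hb⟩ := dvd_order_of_mem_fieldRange p (hE (g j).2)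
    rw [ha, hb] at hij
    -- `p ∣ (i - j) * ord x`, hence `p ∣ i - j`
    have hdvd : (p : ℤ) ∣ ((i : ℕ) - (j : ℕ) : ℤ) * x.order :=
      ⟨b - a, by linear_combination hij⟩
    have hdvd' : (p : ℤ) ∣ ((i : ℕ) - (j : ℕ) : ℤ) :=
      (hord.symm).dvd_of_dvd_mul_right hdvd
    have hi := i.2
    have hj := j.2
    have habs : ((i : ℕ) - (j : ℕ) : ℤ) = 0 := by
      refine Int.eq_zero_of_abs_lt_dvd hdvd' ?_
      rw [abs_lt]
      constructor <;> omega
    exact Fin.ext (by omega)
  · refine ⟨i₁, Finset.mem_univ _, ?_⟩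
    have hgi' : (g i₁ : LaurentSeries k) ≠ 0 := fun h => hi₁ (Subtype.ext h)
    rw [hterm]
    exact mul_ne_zero hgi' (pow_ne_zero _ hx)

/-- Special case of order `-1` (e.g. `x = jqModC k`). -/
theorem linearIndependent_pow_of_order_neg_one (E : Subfield (LaurentSeries k))
    (hE : E ≤ (qExpand k p).fieldRange) (x : LaurentSeries k) (hx : x ≠ 0)
    (hord : x.order = -1) :
    LinearIndependent E (fun i : Fin p => x ^ (i : ℕ)) :=
  linearIndependent_pow_of_le_fieldRange p E hE x hx (by rw [hord]; exact isCoprime_one_left.neg_left)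

/-- Rank form: if `E ≤ k((q^p))`, `E ≤ F'` and `x ∈ F'` has order prime to `p`, then
`p ≤ [F' : E]` (as cardinals). -/
theorem natCast_le_relrank (E F' : Subfield (LaurentSeries k))
    (hE : E ≤ (qExpand k p).fieldRange) (hEF : E ≤ F') (x : LaurentSeries k) (hxF : x ∈ F')
    (hx : x ≠ 0) (hord : IsCoprime x.order (p : ℤ)) :
    (p : Cardinal) ≤ Subfield.relrank E F' := by
  rw [Subfield.relrank_eq_rank_of_le hEF]
  have hli := linearIndependent_pow_of_le_fieldRange p E hE x hx hord
  let v : Fin p → Subfield.extendScalars hEF :=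
    fun i => ⟨x ^ (i : ℕ), pow_mem hxF _⟩
  have hv : LinearIndependent E v := by
    refine LinearIndependent.of_comp (Subfield.extendScalars hEF).val.toLinearMap ?_
    exact hli
  have h := hv.cardinal_lift_le_rank
  simpa using h

/-- Finite-rank form of `natCast_le_relrank`. -/
theorem le_relfinrank (E F' : Subfield (LaurentSeries k))
    (hE : E ≤ (qExpand k p).fieldRange) (hEF : E ≤ F') (x : LaurentSeries k) (hxF : x ∈ F')
    (hx : x ≠ 0) (hord : IsCoprime x.order (p : ℤ)) (hfin : Subfield.relfinrank E F' ≠ 0) :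
    p ≤ Subfield.relfinrank E F' := by
  have h := natCast_le_relrank p E F' hE hEF x hxF hx hord
  rw [Subfield.relfinrank_eq_toNat_relrank] at hfin ⊢
  have hlt : Subfield.relrank E F' < Cardinal.aleph0 := by
    by_contra hcon
    exact hfin (Cardinal.toNat_apply_of_aleph0_le (not_lt.mp hcon))
  have h2 := Cardinal.toNat_le_toNat h hlt
  simpa using h2

end Fermat.Agent.S28.Deg.H8
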