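import Mathlib
import Fermat.Prelude.Def_ModularCurve_X0ModL
import Fermat.Agent.S28.Asm.Defs
import Fermat.Agent.S28.Deg.H8_T1Core

/-!
# S28 / DEG / T1 (helper8)

Relative-degree (`relfinrank`) dictionary for the function fields `k(j_d : d ∣ N) ⊆ k((q))`
and the step `p * D_M ≤ [Fb_{M p} : k(j_p)]` of the degree induction.
-/

set_option autoImplicit false

noncomputable section

namespace Fermat.Agent.S28.Deg.H8

open IntermediateField ModularCurve

variable (k : Type) [Field k]

/-- `k(j_d) ⊆ k((q))`. -/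
def jbdField (d : ℕ) [NeZero d] : IntermediateField k (LaurentSeries k) :=
  IntermediateField.adjoin k {qExpand k d (jqModC k)}

/-- `k(j) ⊆ k((q))`. -/
def jbField : IntermediateField k (LaurentSeries k) :=
  IntermediateField.adjoin k {jqModC k}

theorem jbdField_one : jbdField k 1 = jbField k := by
  rw [jbdField, jbField, qExpand_one_apply]

theorem jbField_le_full (N : ℕ) [NeZero N] : jbField k ≤ modularFunctionFieldFullC k N := by
  rw [jbField, adjoin_le_iff]
  rintro x rfl
  exact jqModC_mem_full k N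

theorem jbdField_le_full (N : ℕ) [NeZero N] (d : ℕ) [NeZero d] (hd : d ∣ N) :
    jbdField k d ≤ modularFunctionFieldFullC k N := by
  rw [jbdField, adjoin_le_iff]
  rintro x rfl
  exact jqModCd_mem_full k N hd

/-- Generic bridge: the degree of a field `↥B` over a simple subextension, computed inside the
ambient field. -/
theorem finrank_adjoin_eq_relfinrank {L : Type*} [Field L] [Algebra k L]
    (B : IntermediateField k L) (x : ↥B) :
    Module.finrank (IntermediateField.adjoin k {x}) ↥B
      = relfinrank (IntermediateField.adjoin k {(x : L)}) B := by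
  rw [← relfinrank_top_right, ← relfinrank_map_map _ _ B.val, adjoin_map, Set.image_singleton,
    ← AlgHom.fieldRange_eq_map, fieldRange_val]
  rfl

/-- `D_N = [Fb_N : k(j)]` as a relative degree inside `k((q))`. -/
theorem degC_eq_relfinrank (N : ℕ) [NeZero N] :
    Asm.degC k N = relfinrank (jbField k) (modularFunctionFieldFullC k N) :=
  finrank_adjoin_eq_relfinrank k (modularFunctionFieldFullC k N) (Asm.jbFull k N)

/-- `[Fb_N : k(j_d)]` as a relative degree inside `k((q))`. -/
theorem finrank_jbdFull_eq_relfinrank (N : ℕ) [NeZero N] (d : ℕ) [NeZero d] (hd : d ∣ N) :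
    Module.finrank (IntermediateField.adjoin k {Asm.jbdFull k N d hd})
        ↥(modularFunctionFieldFullC k N)
      = relfinrank (jbdField k d) (modularFunctionFieldFullC k N) :=
  finrank_adjoin_eq_relfinrank k (modularFunctionFieldFullC k N) (Asm.jbdFull k N d hd)

/-- `q ↦ q^p` maps `k(j)` onto `k(j_p)`. -/
theorem map_jbField (p : ℕ) [NeZero p] :
    (jbField k).map (qExpandAlgHomC k p) = jbdField k p := by
  rw [jbField, jbdField, adjoin_map, Set.image_singleton, qExpandAlgHomC_apply]

/-- `q ↦ q^p` maps `Fb_M` into `Fb_{M p}`. -/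
theorem map_full_le (M p : ℕ) [NeZero M] [NeZero p] [NeZero (M * p)] :
    (modularFunctionFieldFullC k M).map (qExpandAlgHomC k p)
      ≤ modularFunctionFieldFullC k (M * p) :=
  full_degeneracyC_map_le k M p

theorem map_le_fieldRange (p : ℕ) [NeZero p] (A : IntermediateField k (LaurentSeries k)) :
    (A.map (qExpandAlgHomC k p)).toSubfield ≤ (qExpand k p).fieldRange := by
  rintro x ⟨y, -, rfl⟩
  exact ⟨y, rfl⟩

theorem jqModC_ne_zero : jqModC k ≠ 0 := jqModC_ne_zero_of_nontrivial k

theorem order_jqModC : (jqModC k).order = -1 := by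
  have h1 : (jqModC k).coeff (-1) ≠ 0 := by
    rw [coeff_jqModC_neg_one]; exact one_ne_zero
  refine le_antisymm (HahnSeries.order_le_of_coeff_ne_zero h1) ?_
  by_contra hlt
  rw [not_le] at hlt
  exact jqModC_ne_zero k (HahnSeries.coeff_order_eq_zero.mp (coeff_jqModC_of_lt k hlt))

/-- **(T1)** `p * D_M ≤ [Fb_{M p} : k(j_p)]` (if the right-hand side is finite). -/
theorem T1 (M p : ℕ) [NeZero M] [NeZero p] [NeZero (M * p)]
    (hfin : relfinrank (jbdField k p) (modularFunctionFieldFullC k (M * p)) ≠ 0) :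
    p * Asm.degC k M ≤ relfinrank (jbdField k p) (modularFunctionFieldFullC k (M * p)) := by
  set E : IntermediateField k (LaurentSeries k) :=
    (modularFunctionFieldFullC k M).map (qExpandAlgHomC k p) with hE
  have h1 : jbdField k p ≤ E := by
    rw [← map_jbField]
    exact IntermediateField.map_mono _ (jbField_le_full k M)
  have h2 : E ≤ modularFunctionFieldFullC k (M * p) := map_full_le k M p
  have htower := relfinrank_mul_relfinrank h1 h2
  have hD : relfinrank (jbdField k p) E = Asm.degC k M := by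
    rw [degC_eq_relfinrank, ← map_jbField, hE, relfinrank_map_map]
  rw [hD] at htower
  rw [← htower] at hfin ⊢
  have hfin2 : relfinrank E (modularFunctionFieldFullC k (M * p)) ≠ 0 :=
    fun h => hfin (by rw [h, mul_zero])
  have hp : p ≤ relfinrank E (modularFunctionFieldFullC k (M * p)) :=
    le_relfinrank p E.toSubfield (modularFunctionFieldFullC k (M * p)).toSubfield
      (map_le_fieldRange k p _) h2 (jqModC k) (jqModC_mem_full k (M * p)) (jqModC_ne_zero k)
      (by rw [order_jqModC]; exact isCoprime_one_left.neg_left) hfin2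
  calc p * Asm.degC k M = Asm.degC k M * p := mul_comm _ _
    _ ≤ Asm.degC k M * relfinrank E (modularFunctionFieldFullC k (M * p)) :=
      Nat.mul_le_mul_left _ hp

/-- **(T2)** If `[k(j, j_p) : k(j)] = [k(j, j_p) : k(j_p)]` (both are `p + 1` by `PRIME(p)`), then
`[Fb_N : k(j_p)] = D_N` for every `N` divisible by `p`. -/
theorem relfinrank_jbd_eq_degC (N p : ℕ) [NeZero N] [NeZero p] (hpN : p ∣ N)
    (hprime : relfinrank (jbField k) (modularFunctionFieldFullC k p)
      = relfinrank (jbdField k p) (modularFunctionFieldFullC k p)) :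
    relfinrank (jbdField k p) (modularFunctionFieldFullC k N) = Asm.degC k N := by
  have hle : modularFunctionFieldFullC k p ≤ modularFunctionFieldFullC k N :=
    full_degeneracyC_le k hpN
  rw [degC_eq_relfinrank,
    ← relfinrank_mul_relfinrank (jbdField_le_full k p p dvd_rfl) hle,
    ← relfinrank_mul_relfinrank (jbField_le_full k p) hle, hprime]

/-- `PRIME(p)` in `relfinrank` form. -/
theorem relfinrank_of_StPRIME (p : ℕ) [NeZero p] (ℓ : ℕ) [Fact ℓ.Prime] (h : Asm.StPRIME p ℓ) :
    relfinrank (jbField (ZMod ℓ)) (modularFunctionFieldFullC (ZMod ℓ) p) = p + 1 ∧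
    relfinrank (jbdField (ZMod ℓ) p) (modularFunctionFieldFullC (ZMod ℓ) p) = p + 1 := by
  obtain ⟨h1, h2⟩ := h
  refine ⟨?_, ?_⟩
  · rw [← degC_eq_relfinrank]; exact h1
  · rw [← finrank_jbdFull_eq_relfinrank]; exact h2

/-- `PRIME(p)` from its `relfinrank` form. -/
theorem StPRIME_of_relfinrank (p : ℕ) [NeZero p] (ℓ : ℕ) [Fact ℓ.Prime]
    (h1 : relfinrank (jbField (ZMod ℓ)) (modularFunctionFieldFullC (ZMod ℓ) p) = p + 1)
    (h2 : relfinrank (jbdField (ZMod ℓ) p) (modularFunctionFieldFullC (ZMod ℓ) p) = p + 1) :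
    Asm.StPRIME p ℓ := by
  refine ⟨?_, ?_⟩
  · rw [← h1, ← degC_eq_relfinrank]; rfl
  · rw [← h2, ← finrank_jbdFull_eq_relfinrank]

/-- **Induction step of DEG**: `p * D_M ≤ D_{M p}` as soon as `PRIME(p)` holds and `D_{M p}` is
finite (nonzero). -/
theorem degC_step (ℓ : ℕ) [Fact ℓ.Prime] (M p : ℕ) [NeZero M] [NeZero p] [NeZero (M * p)]
    (hP : Asm.StPRIME p ℓ) (hpos : Asm.degC (ZMod ℓ) (M * p) ≠ 0) :
    p * Asm.degC (ZMod ℓ) M ≤ Asm.degC (ZMod ℓ) (M * p) := by
  obtain ⟨h1, h2⟩ := relfinrank_of_StPRIME p ℓ hP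
  have hT2 := relfinrank_jbd_eq_degC (ZMod ℓ) (M * p) p (dvd_mul_left p M) (h1.trans h2.symm)
  have hT1 := T1 (ZMod ℓ) M p (by rw [hT2]; exact hpos)
  rwa [hT2] at hT1

/-- Divisibility `D_M ∣ D_N` for `M ∣ N`. -/
theorem degC_dvd (M N : ℕ) [NeZero M] [NeZero N] (h : M ∣ N) :
    Asm.degC k M ∣ Asm.degC k N := by
  rw [degC_eq_relfinrank, degC_eq_relfinrank,
    ← relfinrank_mul_relfinrank (jbField_le_full k M) (full_degeneracyC_le k h)]
  exact dvd_mul_right _ _

end Fermat.Agent.S28.Deg.H8
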