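import Mathlib
import Fermat.Agent.S28.Asm.Defs
import Fermat.Agent.S28.Deg.H8_T1
import Fermat.Agent.S28.Deg.H8_Psi

/-!
# S28 / DEG assembly (helper8): `Asm.StDEGAll`

Strong induction on the level: `ψ(N) ≤ D_N` for `ℓ ∤ N`, from `PRIME(p)` (all primes `p ≠ ℓ`)
and the upper bounds `D_M ≤ ψ(M)`.
-/

set_option autoImplicit false

noncomputable section

namespace Fermat.Agent.S28.Deg.H8

open ModularCurve

theorem degC_congr (k : Type) [Field k] {N N' : ℕ} [NeZero N] [NeZero N'] (h : N = N') :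
    Asm.degC k N = Asm.degC k N' := by
  subst h; rfl

theorem degC_ne_zero_of_StDEGU (M : ℕ) [NeZero M] (ℓ : ℕ) [Fact ℓ.Prime]
    (h : Asm.StDEGU M ℓ) : Asm.degC (ZMod ℓ) M ≠ 0 := by
  obtain ⟨hfin, -⟩ := h
  have := hfin
  exact (Module.finrank_pos (R := IntermediateField.adjoin (ZMod ℓ) {Asm.jbFull (ZMod ℓ) M})
    (M := ↥(modularFunctionFieldFullC (ZMod ℓ) M))).ne'

section Steps

variable (hP : Asm.StPRIMEAll)
  (hU : ∀ (M : ℕ) [NeZero M] (ℓ : ℕ) [Fact ℓ.Prime], Asm.StDEGU M ℓ)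
  (ℓ : ℕ) [Fact ℓ.Prime]

include hP hU

/-- Case `p ∣ M`: `ψ(M p) = p ψ(M) ≤ p D_M ≤ D_{M p}`. -/
theorem step_sq (M p : ℕ) [NeZero M] [NeZero p] [NeZero (M * p)] (hp : p.Prime) (hpℓ : p ≠ ℓ)
    (hpM : p ∣ M) (ih : Asm.psi M ≤ Asm.degC (ZMod ℓ) M) :
    Asm.psi (M * p) ≤ Asm.degC (ZMod ℓ) (M * p) := by
  rw [psi_mul_prime_of_dvd M p hp hpM]
  calc p * Asm.psi M ≤ p * Asm.degC (ZMod ℓ) M := Nat.mul_le_mul_left _ ih
    _ ≤ _ := degC_step ℓ M p (hP p ℓ hp hpℓ) (degC_ne_zero_of_StDEGU _ _ (hU _ ℓ))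

/-- Case `p ∤ M`: `D_{M p} = c ψ(M)` with `c = p` or `c = p + 1`. -/
theorem step_alt (M p : ℕ) [NeZero M] [NeZero p] [NeZero (M * p)] (hp : p.Prime) (hpℓ : p ≠ ℓ)
    (hpM : ¬ p ∣ M) (ih : Asm.psi M ≤ Asm.degC (ZMod ℓ) M) :
    Asm.degC (ZMod ℓ) (M * p) = p * Asm.psi M ∨
      Asm.degC (ZMod ℓ) (M * p) = Asm.psi (M * p) := by
  have hDM : Asm.degC (ZMod ℓ) M = Asm.psi M := le_antisymm (hU M ℓ).2 ih
  have hstep := degC_step ℓ M p (hP p ℓ hp hpℓ) (degC_ne_zero_of_StDEGU _ _ (hU _ ℓ))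
  have hdvd := degC_dvd (ZMod ℓ) M (M * p) (dvd_mul_right M p)
  have hup := (hU (M * p) ℓ).2
  rw [hDM] at hstep hdvd
  rw [psi_mul_prime_of_not_dvd M p hp hpM] at hup ⊢
  have hpos := psi_pos M
  obtain ⟨c, hc⟩ := hdvd
  rw [hc] at hstep hup ⊢
  have h1 : p ≤ c := by
    rw [mul_comm] at hstep
    exact Nat.le_of_mul_le_mul_left hstep hpos
  have h2 : c ≤ p + 1 := by
    rw [mul_comm (p + 1)] at hup
    exact Nat.le_of_mul_le_mul_left hup hpos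
  rcases Nat.eq_or_lt_of_le h1 with h | h
  · left; rw [← h, mul_comm]
  · right
    have : c = p + 1 := le_antisymm h2 h
    rw [this, mul_comm]

/-- Two distinct primes exactly dividing the level. -/
theorem step_two (M p M' p' : ℕ) [NeZero M] [NeZero p] [NeZero (M * p)]
    [NeZero M'] [NeZero p'] [NeZero (M' * p')] (hN : M * p = M' * p')
    (hp : p.Prime) (hpℓ : p ≠ ℓ) (hp' : p'.Prime) (hp'ℓ : p' ≠ ℓ) (hpp' : p ≠ p')
    (hpM : ¬ p ∣ M) (hp'M' : ¬ p' ∣ M')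
    (ih : Asm.psi M ≤ Asm.degC (ZMod ℓ) M) (ih' : Asm.psi M' ≤ Asm.degC (ZMod ℓ) M') :
    Asm.psi (M * p) ≤ Asm.degC (ZMod ℓ) (M * p) := by
  rcases step_alt hP hU ℓ M p hp hpℓ hpM ih with h1 | h1
  · rcases step_alt hP hU ℓ M' p' hp' hp'ℓ hp'M' ih' with h2 | h2
    · exfalso
      have e1 : Asm.degC (ZMod ℓ) (M * p) = Asm.degC (ZMod ℓ) (M' * p') := degC_congr _ hN
      have e2 : Asm.psi (M * p) = Asm.psi (M' * p') := congrArg Asm.psi hN
      rw [psi_mul_prime_of_not_dvd M p hp hpM,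
        psi_mul_prime_of_not_dvd M' p' hp' hp'M'] at e2
      rw [h1, h2] at e1
      have e3 : Asm.psi M = Asm.psi M' := by
        have e2' : p * Asm.psi M + Asm.psi M = p' * Asm.psi M' + Asm.psi M' := by
          have := e2; ring_nf at this ⊢; linarith
        omega
      rw [← e3] at e1
      exact hpp' (Nat.eq_of_mul_eq_mul_right (psi_pos M) e1)
    · rw [degC_congr (ZMod ℓ) hN, h2, congrArg Asm.psi hN]
  · rw [h1]

end Steps

/-- The level-one case. -/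
theorem step_one (hU : ∀ (M : ℕ) [NeZero M] (ℓ : ℕ) [Fact ℓ.Prime], Asm.StDEGU M ℓ)
    (ℓ : ℕ) [Fact ℓ.Prime] : Asm.psi 1 ≤ Asm.degC (ZMod ℓ) 1 := by
  have h1 : Asm.psi 1 = 1 := by
    rw [psi_eq_dedekindPsi, dedekindPsi_one]
  rw [h1]
  exact Nat.one_le_iff_ne_zero.mpr (degC_ne_zero_of_StDEGU 1 ℓ (hU 1 ℓ))

/-- The prime-level case. -/
theorem step_prime (hP : Asm.StPRIMEAll) (ℓ : ℕ) [Fact ℓ.Prime] (p : ℕ) [NeZero p]
    (hp : p.Prime) (hpℓ : p ≠ ℓ) : Asm.psi p ≤ Asm.degC (ZMod ℓ) p := by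
  rw [psi_prime p hp]
  exact (hP p ℓ hp hpℓ).1.ge

theorem deg_lower_aux (hP : Asm.StPRIMEAll)
    (hU : ∀ (M : ℕ) [NeZero M] (ℓ : ℕ) [Fact ℓ.Prime], Asm.StDEGU M ℓ)
    (ℓ : ℕ) [Fact ℓ.Prime] :
    ∀ (N : ℕ) (_ : NeZero N), ¬ ℓ ∣ N → Asm.psi N ≤ Asm.degC (ZMod ℓ) N := by
  intro N
  induction N using Nat.strong_induction_on with
  | _ N ih =>
    intro hN hℓ
    by_cases hN1 : N = 1
    · subst hN1
      exact step_one hU ℓ
    -- a prime factor `p` of `N`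
    have hp : (N.minFac).Prime := Nat.minFac_prime hN1
    obtain ⟨M, hM⟩ := Nat.minFac_dvd N
    set p := N.minFac with hpdef
    have hNM : N = M * p := by rw [hM, mul_comm]
    clear_value p
    subst hNM
    have hM0 : M ≠ 0 := fun h => (NeZero.ne (M * p)) (by rw [h, zero_mul])
    have : NeZero M := ⟨hM0⟩
    have : NeZero p := ⟨hp.ne_zero⟩
    have hpℓ : p ≠ ℓ := fun h => hℓ (h ▸ dvd_mul_left p M)
    have hℓM : ¬ ℓ ∣ M := fun h => hℓ (h.mul_right p)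
    have hMlt : M < M * p := by
      have := hp.two_le
      nlinarith [Nat.pos_of_ne_zero hM0]
    have ihM := ih M hMlt inferInstance hℓM
    by_cases hpM : p ∣ M
    · exact step_sq hP hU ℓ M p hp hpℓ hpM ihM
    by_cases hM1 : M = 1
    · subst hM1
      have e : (1 : ℕ) * p = p := one_mul p
      rw [degC_congr (ZMod ℓ) e, congrArg Asm.psi e]
      exact step_prime hP ℓ p hp hpℓ
    -- a second prime factor `p'`
    have hp' : (M.minFac).Prime := Nat.minFac_prime hM1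
    obtain ⟨M'', hM''⟩ := Nat.minFac_dvd M
    set p' := M.minFac with hp'def
    clear_value p'
    have hpp' : p ≠ p' := fun h => hpM (h ▸ ⟨M'', hM''⟩)
    have hM''0 : M'' ≠ 0 := fun h => hM0 (by rw [hM'', h, mul_zero])
    have : NeZero p' := ⟨hp'.ne_zero⟩
    have : NeZero (M'' * p) := ⟨Nat.mul_ne_zero hM''0 hp.ne_zero⟩
    have hN' : M * p = (M'' * p) * p' := by rw [hM'']; ring
    have : NeZero (M'' * p * p') := ⟨by rw [← hN']; exact NeZero.ne _⟩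
    have hp'ℓ : p' ≠ ℓ := fun h => hℓM (h ▸ ⟨M'', hM''⟩)
    have hℓM' : ¬ ℓ ∣ M'' * p := fun h => hℓ (by rw [hN']; exact h.mul_right p')
    have hM'lt : M'' * p < M * p := by
      rw [hN']
      have := hp'.two_le
      nlinarith [Nat.pos_of_ne_zero (Nat.mul_ne_zero hM''0 hp.ne_zero)]
    have ihM' := ih (M'' * p) hM'lt inferInstance hℓM'
    by_cases hp'M' : p' ∣ M'' * p
    · rw [degC_congr (ZMod ℓ) hN', congrArg Asm.psi hN']
      exact step_sq hP hU ℓ (M'' * p) p' hp' hp'ℓ hp'M' ihM'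
    · exact step_two hP hU ℓ M p (M'' * p) p' hN' hp hpℓ hp' hp'ℓ hpp' hpM hp'M' ihM ihM'

/-- **Deliverable of DEG**: `ψ(N) ≤ D_N` for `ℓ ∤ N`, from `PRIME` and the upper bounds. -/
theorem stDEGAll : Asm.StDEGAll := by
  intro hP hU N hN ℓ hℓ hℓN
  exact deg_lower_aux hP hU ℓ N hN hℓN

end Fermat.Agent.S28.Deg.H8
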