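import Fermat.Agent.S28.Deg.H9_PrimeAsm
import Fermat.Agent.S28.Deg.H21_Excl

/-!
# S28, package DEG (helper9): `StPRIMEAll` from the three inputs of package MOD

`Asm.StPRIMEAll` follows from

* `StModC p` for every prime `p` (the modular equation over `ℤ`, both relations),
* `H21.StI3 ℤ` (the level-one identity `(θ j)^6 = j^4 (j - 1728)^3 Δ`),
* `H21.StVInt (ZMod ℓ) p` for primes `p ≠ ℓ` (the modular unit `Δ(q^p)/Δ(q)` is integral over
  `k[j]`),

by the dichotomy (`H9.prime_dichotomy`) and the exclusion (`H21.excl`).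
-/

set_option autoImplicit false

open ModularCurve

namespace Fermat.Agent.S28.Deg.H9

/-- `p ≠ 0` in `ZMod ℓ` for distinct primes `p`, `ℓ`. -/
lemma natCast_zmod_ne_zero {p ℓ : ℕ} [Fact ℓ.Prime] (hp : p.Prime) (hpl : p ≠ ℓ) :
    ((p : ℕ) : ZMod ℓ) ≠ 0 := by
  intro h
  rw [ZMod.natCast_eq_zero_iff] at h
  rcases (Nat.dvd_prime hp).mp h with h1 | h1
  · exact (Fact.out : ℓ.Prime).one_lt.ne' h1
  · exact hpl h1.symm

/-- **`StPRIMEAll` from MOD-C, (I3) and the integrality of the modular unit.** -/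
theorem stPRIMEAll_of_mod
    (hC : ∀ (p : ℕ) [NeZero p], p.Prime → StModC p)
    (h3 : Fermat.Agent.S28.Deg.H21.StI3 ℤ)
    (hv : ∀ (p : ℕ) [NeZero p] (ℓ : ℕ) [Fact ℓ.Prime], p.Prime → p ≠ ℓ →
      Fermat.Agent.S28.Deg.H21.StVInt (ZMod ℓ) p) :
    Asm.StPRIMEAll :=
  stPRIMEAll_of hC fun p _ ℓ _ hp hpl =>
    Fermat.Agent.S28.Deg.H21.excl (ZMod ℓ) p hp.two_le (natCast_zmod_ne_zero hp hpl)
      (Fermat.Agent.S28.Deg.H21.StI3.of_int h3) (hv p ℓ hp hpl)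

end Fermat.Agent.S28.Deg.H9
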