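import Mathlib
import Fermat.Prelude.Def_ModularCurve_X0ModL
import Fermat.Prelude.Def_ModularCurve_ModularUnit
import Fermat.Agent.S28.Asm.Defs

/-!
# S28, package DEG / PRIME: canonical definitions and interface propositions (helper20)

Everything is stated over an arbitrary commutative ring `R` (resp. field `k`), FUNCTORIALLY in the
coefficients (`coeffMap`), so that the formal identities proved by MOD over `ℤ`, `ℤ[1/p]` or `ℚ`
can be pushed to `ZMod ℓ` by one application of the `_map` lemmas of this file.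

* `ev2 Φ x y`     : the value `Φ(x; y)` of `Φ ∈ R[Y][X]` (outer variable `X ↦ x`, inner `Y ↦ y`).
* `deltaC R`      : `Δ = q ∏ (1 - q^n)^24` in `R((q))`.
* `vC R p`        : the modular unit `v = Δ(q^p) / Δ(q) = q^(p-1) (1 + ...)` in `R((q))`.
* `theta R`       : the derivation `q d/dq` of `R((q))`.
* `StMODC p R`    : (MOD-C) a monic `Φ ∈ R[Y][X]` of degree `p + 1` with `Φ(j_p; j) = 0` and
                    `Φ(j; j_p) = 0`.
* `StVINT p R`    : (MOD-A at `(0, 1)`) `v` is integral over `R[j]`.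
* `StI3 R`        : the level-one identity `(θ j)^6 = j^4 (j - 1728)^3 Δ`.
* `StI3w R`       : its weak form `(θ j)^6 = P(j) Δ` for some monic `P ∈ R[X]`.
* `StBAD p k`     : the bad scenario `j_p ∈ k(j)`.
* `StVRAT p k`    : `v ∈ k(j)`.
-/

set_option autoImplicit false

open ModularCurve Polynomial

noncomputable section

namespace Fermat.Agent.S28.Deg

/-- `Φ(x; y)` for `Φ ∈ R[Y][X]`: the outer variable is evaluated at `x`, the inner one at `y`. -/
def ev2 {R : Type*} [CommRing R] (Φ : Polynomial (Polynomial R)) (x y : LaurentSeries R) :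
    LaurentSeries R :=
  (Φ.map (Polynomial.aeval y : Polynomial R →ₐ[R] LaurentSeries R).toRingHom).eval x

/-- `Δ = q ∏ (1 - q^n)^24` with coefficients in `R`. -/
def deltaC (R : Type*) [CommRing R] : LaurentSeries R :=
  HahnSeries.single (1 : ℤ) (1 : R) *
    HahnSeries.ofPowerSeries ℤ R (dedekindEtaUnit.map (Int.castRingHom R))

/-- `Δ⁻¹ = q⁻¹ ∏ (1 - q^n)^(-24)` with coefficients in `R`. -/
def deltaInvC (R : Type*) [CommRing R] : LaurentSeries R :=
  HahnSeries.single (-1 : ℤ) (1 : R) *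
    HahnSeries.ofPowerSeries ℤ R (dedekindEtaUnitInv.map (Int.castRingHom R))

/-- The modular unit `v = Δ(q^p) / Δ(q)` with coefficients in `R`. -/
def vC (R : Type*) [CommRing R] (p : ℕ) [NeZero p] : LaurentSeries R :=
  qExpand R p (deltaC R) * deltaInvC R

/-- `θ = q d/dq` on `R((q))`. -/
def theta (R : Type*) [CommRing R] (f : LaurentSeries R) : LaurentSeries R :=
  HahnSeries.single (1 : ℤ) (1 : R) * LaurentSeries.derivative R f

/-- (MOD-C) over `R`. -/
def StMODC (p : ℕ) [NeZero p] (R : Type*) [CommRing R] : Prop :=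
  ∃ Φ : Polynomial (Polynomial R), Φ.Monic ∧ Φ.natDegree = p + 1 ∧
    ev2 Φ (qExpand R p (jqModC R)) (jqModC R) = 0 ∧
    ev2 Φ (jqModC R) (qExpand R p (jqModC R)) = 0

/-- `v` is integral over `R[j]`. -/
def StVINT (p : ℕ) [NeZero p] (R : Type*) [CommRing R] : Prop :=
  ∃ H : Polynomial (Polynomial R), H.Monic ∧ ev2 H (vC R p) (jqModC R) = 0

/-- The level-one identity `(θ j)^6 = j^4 (j - 1728)^3 Δ` over `R`. -/
def StI3 (R : Type*) [CommRing R] : Prop :=
  theta R (jqModC R) ^ 6 = jqModC R ^ 4 * (jqModC R - 1728) ^ 3 * deltaC R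

/-- Weak form of (I3), SUFFICIENT for the exclusion: `(θ j)^6 = P(j) Δ` for SOME monic `P`
(no need to identify `P = X^4 (X - 1728)^3`). -/
def StI3w (R : Type*) [CommRing R] : Prop :=
  ∃ P : Polynomial R, P.Monic ∧
    theta R (jqModC R) ^ 6 = Polynomial.aeval (jqModC R) P * deltaC R

/-- The bad scenario: `j_p ∈ k(j)`. -/
def StBAD (p : ℕ) [NeZero p] (k : Type*) [Field k] : Prop :=
  qExpand k p (jqModC k) ∈ IntermediateField.adjoin k {jqModC k}

/-- `v ∈ k(j)`. -/
def StVRAT (p : ℕ) [NeZero p] (k : Type*) [Field k] : Prop :=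
  vC k p ∈ IntermediateField.adjoin k {jqModC k}

end Fermat.Agent.S28.Deg
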