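import Fermat.Agent.S28.Deg.H9_PrimeFinal

/-!
# S28 / DEG / PRIME (helper20): the exclusion from the WEAK form of (I3)

`H21.excl` uses the level-one identity `(θ j)^6 = j^4 (j - 1728)^3 Δ`.  The argument only needs
`(θ j)^6 = G(j) Δ` for SOME monic polynomial `G` (`StI3w`): no identification of `G`, hence no
coefficient computation, is needed on the analytic side.
-/

set_option autoImplicit false

noncomputable section

namespace Fermat.Agent.S28.Deg.H20

open ModularCurve Polynomial Fermat.Agent.S28.Deg.H21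

/-- Weak (I3): `(θ j)^6 = G(j) Δ` for some monic `G ∈ R[X]`.  `G(j)` is written with
`eval₂ HahnSeries.C`, so no algebra instance on `R((q))` is involved. -/
def StI3w (R : Type*) [CommRing R] : Prop :=
  ∃ G : R[X], G.Monic ∧
    theta (jqModC R) ^ 6 = G.eval₂ (HahnSeries.C : R →+* LaurentSeries R) (jqModC R) * deltaL R

section Transport

variable {R S : Type*} [CommRing R] [CommRing S]

theorem coeffMap_comp_C (φ : R →+* S) :
    (coeffMap φ).comp (HahnSeries.C : R →+* LaurentSeries R) =
      (HahnSeries.C : S →+* LaurentSeries S).comp φ := by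
  ext r : 1
  change coeffMap φ (HahnSeries.single 0 r) = HahnSeries.single 0 (φ r)
  rw [coeffMap_single]

theorem coeffMap_eval₂_C (φ : R →+* S) (G : R[X]) (x : LaurentSeries R) :
    coeffMap φ (G.eval₂ (HahnSeries.C : R →+* LaurentSeries R) x) =
      (G.map φ).eval₂ (HahnSeries.C : S →+* LaurentSeries S) (coeffMap φ x) := by
  rw [Polynomial.hom_eval₂, coeffMap_comp_C, Polynomial.eval₂_map]

theorem coeffMap_injective_of (φ : R →+* S) (hφ : Function.Injective φ) :
    Function.Injective (coeffMap φ) := by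
  intro x y hxy
  ext n
  exact hφ (by simpa using congrArg (fun z => z.coeff n) hxy)

/-- Weak (I3) is stable under coefficient maps. -/
theorem StI3w.map (φ : R →+* S) (h : StI3w R) : StI3w S := by
  obtain ⟨G, hG, h⟩ := h
  refine ⟨G.map φ, hG.map φ, ?_⟩
  have h' := congrArg (coeffMap φ) h
  rw [map_pow, coeffMap_theta, coeffMap_jqModC, map_mul, coeffMap_eval₂_C, coeffMap_jqModC,
    coeffMap_deltaL] at h'
  exact h'

theorem StI3w.of_int (h : StI3w ℤ) : StI3w R := h.map (Int.castRingHom R)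

/-- The strong form implies the weak form. -/
theorem StI3w.of_StI3 (h : StI3 R) : StI3w R := by
  refine ⟨X ^ 4 * (X - C 1728) ^ 3, ?_, ?_⟩
  · exact (monic_X_pow 4).mul ((monic_X_sub_C _).pow 3)
  · rw [h, eval₂_mul, eval₂_pow, eval₂_pow, eval₂_sub, eval₂_X, eval₂_C, map_ofNat]

/-- Adapter: weak (I3) stated with an arbitrary ring homomorphism `g : R[X] →+* R((q))` which is
`HahnSeries.C` on constants and sends `X` to `j` (e.g. `aeval (jqModC R)` for ANY algebra
structure whose `algebraMap` is `HahnSeries.C`). -/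
theorem StI3w.of_ringHom (g : R[X] →+* LaurentSeries R)
    (hgC : ∀ r : R, g (C r) = HahnSeries.C r) (hgX : g X = jqModC R)
    (G : R[X]) (hG : G.Monic) (h : theta (jqModC R) ^ 6 = g G * deltaL R) : StI3w R := by
  refine ⟨G, hG, ?_⟩
  have hg : g = Polynomial.eval₂RingHom (HahnSeries.C : R →+* LaurentSeries R) (jqModC R) := by
    refine Polynomial.ringHom_ext (fun r => ?_) ?_
    · rw [hgC, Polynomial.coe_eval₂RingHom, eval₂_C]
    · rw [hgX, Polynomial.coe_eval₂RingHom, eval₂_X]
  rw [h, hg, Polynomial.coe_eval₂RingHom]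

end Transport

section Field

variable (k : Type*) [Field k] (p : ℕ) [NeZero p]

theorem algebraMap_eq_C (r : k) :
    algebraMap k (LaurentSeries k) r = (HahnSeries.C : k →+* LaurentSeries k) r := by
  rw [algebraMap_laurentSeries_eq_single]
  rfl

theorem eval₂_C_eq_aeval (G : k[X]) (x : LaurentSeries k) :
    G.eval₂ (HahnSeries.C : k →+* LaurentSeries k) x = aeval x G := by
  rw [aeval_def]
  congr 1
  ext r : 1
  rw [Fermat.Agent.S28.Deg.H20.algebraMap_eq_C]

theorem aeval_jqModC_ne_zero {G : k[X]} (hG : G ≠ 0) : aeval (jqModC k) G ≠ 0 := fun h =>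
  hG (Fermat.Agent.S28.Mod.PolyJ.aeval_jqModC_injective (by simpa using h))

theorem qExpand_aeval (G : k[X]) (x : LaurentSeries k) :
    qExpand k p (aeval x G) = aeval (qExpand k p x) G := by
  have h := Polynomial.aeval_algHom_apply (qExpandAlgHomC k p) x G
  simp only [qExpandAlgHomC_apply] at h
  exact h.symm

/-- **PRIME exclusion from weak (I3).** -/
theorem exclW (hp2 : 2 ≤ p) (hpk : (p : k) ≠ 0) (h3 : StI3w k) (hv : StVInt k p) :
    qExpand k p (jqModC k) ∉ IntermediateField.adjoin k {jqModC k} := by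
  intro hmem
  obtain ⟨G, hGm, h3⟩ := h3
  rw [eval₂_C_eq_aeval] at h3
  have hG0 : G ≠ 0 := hGm.ne_zero
  have hjmem : jqModC k ∈ IntermediateField.adjoin k {jqModC k} :=
    IntermediateField.subset_adjoin k _ rfl
  -- chain rule
  obtain ⟨r, hr, hrθ⟩ := exists_theta_eq_mul (jqModC k) hmem
  have h1 : (p : LaurentSeries k) * qExpand k p (theta (jqModC k)) = r * theta (jqModC k) := by
    rw [← theta_qExpand]; exact hrθ
  have hV : qExpand k p (theta (jqModC k)) ^ 6 =
      aeval (qExpand k p (jqModC k)) G * qExpand k p (deltaL k) := by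
    rw [← map_pow, h3, map_mul, qExpand_aeval]
  have h2 : (p : LaurentSeries k) ^ 6 *
      (aeval (qExpand k p (jqModC k)) G * qExpand k p (deltaL k)) =
      r ^ 6 * (aeval (jqModC k) G * deltaL k) := by
    rw [← hV, ← h3, ← mul_pow, ← mul_pow, h1]
  have hpL : (p : LaurentSeries k) ≠ 0 := by
    rw [← map_natCast (HahnSeries.C : k →+* LaurentSeries k)]
    exact fun h => hpk (HahnSeries.C_injective (by rw [h, map_zero]))
  have hGp : aeval (qExpand k p (jqModC k)) G ≠ 0 := by
    rw [← qExpand_aeval]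
    exact fun h => aeval_jqModC_ne_zero k hG0 (qExpand_injective p (by rw [h, map_zero]))
  have hD : (p : LaurentSeries k) ^ 6 * aeval (qExpand k p (jqModC k)) G ≠ 0 :=
    mul_ne_zero (pow_ne_zero _ hpL) hGp
  have hveq : vL k p = r ^ 6 * aeval (jqModC k) G *
      ((p : LaurentSeries k) ^ 6 * aeval (qExpand k p (jqModC k)) G)⁻¹ := by
    rw [eq_mul_inv_iff_mul_eq₀ hD, vL]
    have hΔ := deltaL_ne_zero k
    field_simp
    linear_combination h2
  have haeval_mem : ∀ x ∈ IntermediateField.adjoin k {jqModC k},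
      aeval x G ∈ IntermediateField.adjoin k {jqModC k} := by
    intro x hx
    rw [aeval_eq_sum_range]
    refine sum_mem fun i _ => ?_
    rw [Algebra.smul_def]
    exact mul_mem (IntermediateField.algebraMap_mem _ _) (pow_mem hx i)
  have hvmem : vL k p ∈ IntermediateField.adjoin k {jqModC k} := by
    rw [hveq]
    exact mul_mem (mul_mem (pow_mem hr 6) (haeval_mem _ hjmem))
      (inv_mem (mul_mem (pow_mem (natCast_mem _ _) 6) (haeval_mem _ hmem)))
  -- `v` is a polynomial in `j`
  obtain ⟨S, hS⟩ := exists_aeval_eq_of_isIntegral k hvmem hv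
  -- compare the coefficients at `-deg S`
  have hc := Fermat.Agent.S28.Mod.PolyJ.coeff_aeval_jqModC S S.natDegree le_rfl
  rw [hS, coeff_vL_of_nonpos k p hp2 (by omega)] at hc
  have hS0 : S = 0 := leadingCoeff_eq_zero.mp hc.symm
  rw [hS0, map_zero] at hS
  exact vL_ne_zero k p hS.symm

end Field

/-- **`StPRIMEAll` from MOD-C, WEAK (I3) and the integrality of the modular unit.** -/
theorem stPRIMEAll_of_mod_w
    (hC : ∀ (p : ℕ) [NeZero p], p.Prime → Fermat.Agent.S28.Deg.H9.StModC p)
    (h3 : StI3w ℤ)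
    (hv : ∀ (p : ℕ) [NeZero p] (ℓ : ℕ) [Fact ℓ.Prime], p.Prime → p ≠ ℓ →
      StVInt (ZMod ℓ) p) :
    Asm.StPRIMEAll :=
  Fermat.Agent.S28.Deg.H9.stPRIMEAll_of hC fun p _ ℓ _ hp hpl =>
    exclW (ZMod ℓ) p hp.two_le (Fermat.Agent.S28.Deg.H9.natCast_zmod_ne_zero hp hpl)
      (StI3w.of_int h3) (hv p ℓ hp hpl)

end Fermat.Agent.S28.Deg.H20
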