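import Mathlib
import Fermat.Agent.S28.Deg.H21_Excl

/-!
# S28 / DEG / PRIME exclusion from the WEAK form of (I3) (helper8)

helper21's `excl` with the hypothesis `(θ j)^6 = j^4 (j - 1728)^3 Δ` replaced by
`(θ j)^6 = G(j) Δ` for SOME nonzero polynomial `G`.
-/

set_option autoImplicit false

noncomputable section

namespace Fermat.Agent.S28.Deg.H8

open ModularCurve Polynomial Fermat.Agent.S28.Deg.H21

/-- Weak (I3) over a field: `(θ j)^6 = G(j) Δ` for some nonzero polynomial `G`. -/
def StI3w (k : Type*) [Field k] : Prop :=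
  ∃ G : k[X], G ≠ 0 ∧ theta (jqModC k) ^ 6 = aeval (jqModC k) G * deltaL k

/-- Weak (I3) over a commutative ring, with `G` monic, evaluation written with `eval₂`. -/
def StI3wMonic (R : Type*) [CommRing R] : Prop :=
  ∃ G : R[X], G.Monic ∧
    theta (jqModC R) ^ 6 = G.eval₂ (HahnSeries.C : R →+* LaurentSeries R) (jqModC R) * deltaL R

theorem coeffMap_eval₂_C {R S : Type*} [CommRing R] [CommRing S] (φ : R →+* S) (G : R[X])
    (x : LaurentSeries R) :
    coeffMap φ (G.eval₂ (HahnSeries.C : R →+* LaurentSeries R) x)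
      = (G.map φ).eval₂ (HahnSeries.C : S →+* LaurentSeries S) (coeffMap φ x) := by
  rw [Polynomial.hom_eval₂, Polynomial.eval₂_map]
  congr 1
  ext r : 1
  simp only [RingHom.comp_apply]
  rw [HahnSeries.C_apply, coeffMap_single, HahnSeries.C_apply]

theorem StI3wMonic.map {R S : Type*} [CommRing R] [CommRing S] (φ : R →+* S)
    (h : StI3wMonic R) : StI3wMonic S := by
  obtain ⟨G, hG, h⟩ := h
  refine ⟨G.map φ, hG.map φ, ?_⟩
  have h' := congrArg (coeffMap φ) h
  rw [map_pow, coeffMap_theta, coeffMap_jqModC, map_mul, coeffMap_eval₂_C, coeffMap_jqModC,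
    coeffMap_deltaL] at h'
  exact h'

theorem StI3wMonic.toField {k : Type*} [Field k] (h : StI3wMonic k) : StI3w k := by
  obtain ⟨G, hG, h⟩ := h
  refine ⟨G, hG.ne_zero, ?_⟩
  rw [h, Polynomial.aeval_def]
  congr 2
  ext c : 1
  rw [algebraMap_laurentSeries_eq_single, HahnSeries.C_apply]

/-- Weak (I3) over `ℤ` (monic `G`) gives weak (I3) over every field. -/
theorem StI3w.of_int {k : Type*} [Field k] (h : StI3wMonic ℤ) : StI3w k :=
  (h.map (Int.castRingHom k)).toField

/-- The strong form implies the weak form. -/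
theorem StI3w.of_StI3 {k : Type*} [Field k] (h : StI3 k) : StI3w k := by
  refine ⟨X ^ 4 * (X - C 1728) ^ 3, ?_, ?_⟩
  · exact mul_ne_zero (pow_ne_zero _ X_ne_zero) (pow_ne_zero _ (X_sub_C_ne_zero _))
  · rw [h]
    simp only [map_mul, map_pow, map_sub, aeval_X, aeval_C]
    rw [map_ofNat]

variable (k : Type*) [Field k] (p : ℕ) [NeZero p]

theorem aeval_qExpand (G : k[X]) (x : LaurentSeries k) :
    aeval (qExpand k p x) G = qExpand k p (aeval x G) := by
  have h := Polynomial.aeval_algHom_apply (qExpandAlgHomC k p) x G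
  simpa using h

/-- **PRIME exclusion, weak form.** -/
theorem excl_weak (hp2 : 2 ≤ p) (hpk : (p : k) ≠ 0) (h3 : StI3w k) (hv : StVInt k p) :
    qExpand k p (jqModC k) ∉ IntermediateField.adjoin k {jqModC k} := by
  intro hmem
  obtain ⟨G, hG0, h3⟩ := h3
  have hjmem : jqModC k ∈ IntermediateField.adjoin k {jqModC k} :=
    IntermediateField.subset_adjoin k _ rfl
  -- chain rule
  obtain ⟨r, hr, hrθ⟩ := exists_theta_eq_mul (jqModC k) hmem
  have h1 : (p : LaurentSeries k) * qExpand k p (theta (jqModC k)) = r * theta (jqModC k) := by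
    rw [← theta_qExpand]; exact hrθ
  have hV : qExpand k p (theta (jqModC k)) ^ 6 =
      aeval (qExpand k p (jqModC k)) G * qExpand k p (deltaL k) := by
    rw [← map_pow, h3, map_mul, aeval_qExpand]
  have h2 : (p : LaurentSeries k) ^ 6 *
      (aeval (qExpand k p (jqModC k)) G * qExpand k p (deltaL k)) =
      r ^ 6 * (aeval (jqModC k) G * deltaL k) := by
    rw [← hV, ← h3, ← mul_pow, ← mul_pow, h1]
  have hpL : (p : LaurentSeries k) ≠ 0 := by
    rw [← map_natCast (HahnSeries.C : k →+* LaurentSeries k)]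
    exact fun h => hpk (HahnSeries.C_injective (by rw [h, map_zero]))
  have hGj : aeval (jqModC k) G ≠ 0 := by
    intro h
    exact hG0 ((transcendental_iff_injective.mp (transcendental_jqModC k)) (by rw [h, map_zero]))
  have hGjp : aeval (qExpand k p (jqModC k)) G ≠ 0 := by
    rw [aeval_qExpand]
    exact fun h => hGj (qExpand_injective p (by rw [h, map_zero]))
  have hD : (p : LaurentSeries k) ^ 6 * aeval (qExpand k p (jqModC k)) G ≠ 0 :=
    mul_ne_zero (pow_ne_zero _ hpL) hGjp
  have hveq : vL k p = r ^ 6 * aeval (jqModC k) G *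
      ((p : LaurentSeries k) ^ 6 * aeval (qExpand k p (jqModC k)) G)⁻¹ := by
    rw [eq_mul_inv_iff_mul_eq₀ hD, vL]
    have hΔ := deltaL_ne_zero k
    field_simp
    linear_combination h2
  have haeval_mem : ∀ x ∈ IntermediateField.adjoin k {jqModC k},
      aeval x G ∈ IntermediateField.adjoin k {jqModC k} := by
    intro x hx
    rw [Polynomial.aeval_eq_sum_range]
    refine sum_mem fun i _ => ?_
    rw [Algebra.smul_def]
    exact mul_mem (IntermediateField.algebraMap_mem _ _) (pow_mem hx i)
  have hvmem : vL k p ∈ IntermediateField.adjoin k {jqModC k} := by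
    rw [hveq]
    exact mul_mem (mul_mem (pow_mem hr 6) (haeval_mem _ hjmem))
      (inv_mem (mul_mem (pow_mem (natCast_mem _ _) 6) (haeval_mem _ hmem)))
  -- `v` is a polynomial in `j`
  obtain ⟨S, hS⟩ := exists_aeval_eq_of_isIntegral k hvmem hv
  -- compare the coefficients at `-deg S`
  have hc := Fermat.Agent.S28.Mod.PolyJ.coeff_aeval_jqModC S S.natDegree le_rfl
  rw [hS, coeff_vL_of_nonpos k p hp2 (by omega)] at hc
  have hS0 : S = 0 := leadingCoeff_eq_zero.mp hc.symm
  rw [hS0, map_zero] at hS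
  exact vL_ne_zero k p hS.symm

end Fermat.Agent.S28.Deg.H8
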