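import Mathlib
import Fermat.Agent.S28.Deg.H9_PrimeAsm
import Fermat.Agent.S28.Deg.H8_ExclWeak

/-!
# S28 / DEG / PRIME wiring (helper8)

`Asm.StPRIMEAll` from the three MOD inputs: MOD-C (`H9.StModC p`), the weak or strong form of
(I3), and the integrality of the modular unit `v = Δ(q^p)/Δ(q)` over `k[j]`, `k = ZMod ℓ`.
-/

set_option autoImplicit false

noncomputable section

namespace Fermat.Agent.S28.Deg.H8

open ModularCurve Polynomial Fermat.Agent.S28.Deg.H21 Fermat.Agent.S28.Deg.H9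

theorem natCast_zmod_ne_zero {p ℓ : ℕ} [Fact ℓ.Prime] (hp : p.Prime) (hpl : p ≠ ℓ) :
    ((p : ℕ) : ZMod ℓ) ≠ 0 := by
  intro h
  rw [ZMod.natCast_eq_zero_iff] at h
  exact hpl ((Nat.prime_dvd_prime_iff_eq (Fact.out : ℓ.Prime) hp).mp h).symm

/-- The integrality input, for all primes `p ≠ ℓ`. -/
def StVIntAll : Prop :=
  ∀ (p : ℕ) [NeZero p] (ℓ : ℕ) [Fact ℓ.Prime], p.Prime → p ≠ ℓ → StVInt (ZMod ℓ) p

/-- **`StPRIMEAll` from MOD-C, weak (I3) over the fields `ZMod ℓ`, and integrality of `v`.** -/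
theorem stPRIMEAll_of_weak
    (hC : ∀ (p : ℕ) [NeZero p], p.Prime → StModC p)
    (h3 : ∀ (ℓ : ℕ) [Fact ℓ.Prime], StI3w (ZMod ℓ))
    (hv : StVIntAll) : Asm.StPRIMEAll :=
  stPRIMEAll_of hC fun p _ ℓ _ hp hpl =>
    excl_weak (ZMod ℓ) p hp.two_le (natCast_zmod_ne_zero hp hpl) (h3 ℓ) (hv p ℓ hp hpl)

/-- The same with weak (I3) over `ℤ` (monic `G`). -/
theorem stPRIMEAll_of_weak_int
    (hC : ∀ (p : ℕ) [NeZero p], p.Prime → StModC p)
    (h3 : StI3wMonic ℤ) (hv : StVIntAll) : Asm.StPRIMEAll :=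
  stPRIMEAll_of_weak hC (fun _ _ => StI3w.of_int h3) hv

/-- The same with the strong form of (I3) over `ℤ`. -/
theorem stPRIMEAll_of_strong_int
    (hC : ∀ (p : ℕ) [NeZero p], p.Prime → StModC p)
    (h3 : StI3 ℤ) (hv : StVIntAll) : Asm.StPRIMEAll :=
  stPRIMEAll_of_weak hC (fun _ _ => StI3w.of_StI3 (StI3.of_int h3)) hv

end Fermat.Agent.S28.Deg.H8
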