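import Mathlib
import Fermat.Agent.S28.Deg.H21_Excl

/-!
# S28 / DEG / adapters for `StVInt` (helper8)

`StVInt k p` (`v = Δ(q^p)/Δ(q)` is integral over `k[j]`) from a monic relation in any of the
shapes MOD may deliver.
-/

set_option autoImplicit false

noncomputable section

namespace Fermat.Agent.S28.Deg.H8

open ModularCurve Polynomial Fermat.Agent.S28.Deg.H21

/-- Generic form: an element killed by a monic polynomial over `L` whose coefficients lie in the
subalgebra `A` is integral over `A`. -/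
theorem isIntegral_of_monic_of_coeff_mem {k L : Type*} [CommRing k] [CommRing L] [Algebra k L]
    (A : Subalgebra k L) (P : L[X]) (hP : P.Monic) (hc : ∀ i, P.coeff i ∈ A) (v : L)
    (hroot : P.eval v = 0) : IsIntegral A v := by
  have hlifts : P ∈ Polynomial.lifts (algebraMap A L) :=
    (Polynomial.lifts_iff_coeff_lifts P).mpr fun i => ⟨⟨P.coeff i, hc i⟩, rfl⟩
  obtain ⟨Q, hQP, -, hQm⟩ := Polynomial.lifts_and_natDegree_eq_and_monic hlifts hP
  refine ⟨Q, hQm, ?_⟩
  rw [Polynomial.eval₂_eq_eval_map, hQP, hroot]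

variable (k : Type*) [Field k] (p : ℕ) [NeZero p]

/-- **Adapter 1**: a monic polynomial over `k((q))` with coefficients in `k[j]` killing `v`. -/
theorem stVInt_of_monic (P : (LaurentSeries k)[X]) (hP : P.Monic)
    (hc : ∀ i, P.coeff i ∈ Algebra.adjoin k {jqModC k}) (hroot : P.eval (vL k p) = 0) :
    StVInt k p :=
  isIntegral_of_monic_of_coeff_mem (Algebra.adjoin k {jqModC k}) P hP hc (vL k p) hroot

theorem aeval_jqModC_mem_adjoin (f : k[X]) :
    aeval (jqModC k) f ∈ Algebra.adjoin k {jqModC k} := by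
  rw [Algebra.adjoin_singleton_eq_range_aeval]
  exact ⟨f, rfl⟩

/-- **Adapter 2**: a monic `H ∈ k[Y][X]` with `H(v ; j) = 0`. -/
theorem stVInt_of_monic₂ (H : (k[X])[X]) (hH : H.Monic)
    (hroot : (H.map (aeval (jqModC k)).toRingHom).eval (vL k p) = 0) : StVInt k p := by
  refine stVInt_of_monic k p _ (hH.map _) (fun i => ?_) hroot
  rw [Polynomial.coeff_map]
  exact aeval_jqModC_mem_adjoin k _

/-- **Adapter 3**: a monic `H ∈ R[Y][X]` with `H(v_R ; j_R) = 0` in `R((q))`, where
`φ : R →+* k` and `v_R` reduces to `v`. -/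
theorem stVInt_of_monic_ring {R : Type*} [CommRing R] (φ : R →+* k) (vR : LaurentSeries R)
    (hvR : coeffMap φ vR = vL k p) (H : (R[X])[X]) (hH : H.Monic)
    (hroot : (H.map (aeval (jqModC R)).toRingHom).eval vR = 0) : StVInt k p := by
  refine stVInt_of_monic k p ((H.map (aeval (jqModC R)).toRingHom).map (coeffMap φ))
    ((hH.map _).map _) (fun i => ?_) ?_
  · rw [Polynomial.coeff_map, Polynomial.coeff_map]
    show coeffMap φ (aeval (jqModC R) (H.coeff i)) ∈ _
    rw [Fermat.Agent.S28.Mod.PolyJ.coeffMap_aeval_jqModC]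
    exact aeval_jqModC_mem_adjoin k _
  · rw [← hvR, Polynomial.eval_map, Polynomial.eval₂_map, ← Polynomial.hom_eval₂]
    rw [Polynomial.eval_map] at hroot
    rw [hroot, map_zero]

end Fermat.Agent.S28.Deg.H8
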