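import Mathlib

/-!
# S28, package DEG (helper9): the dichotomy at prime level, abstract core

`F / k` is a field extension, `θ : F →ₐ[k] F` an endomorphism (`qExpand p` on Laurent series),
`x : F` (`= j mod ℓ`), `y = θ x`, `z = θ y`.  Assume

* `x` has degree at least `p` over `θ.fieldRange` (no nonzero polynomial of degree `< p` with
  coefficients in the range of `θ` vanishes at `x`), `2 ≤ p`;
* `P` is a monic polynomial of degree `p + 1` with coefficients in `k(y)` and `P x = 0`,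
  `P z = 0` (`P = Φ(X; j_p)` for the modular polynomial `Φ`).

Then either `y ∈ k(x)`, or `[k(y)(x) : k(y)] = p + 1` and `[k(x)(y) : k(x)] = p + 1`.
-/

set_option autoImplicit false

open Polynomial IntermediateField

namespace Fermat.Agent.S28.Deg.H9

variable {k F : Type*} [Field k] [Field F] [Algebra k F]

/-- `x` has degree at least `d` over the set `S`: no nonzero polynomial of degree `< d` with
coefficients in `S` vanishes at `x`. -/
def DegGe (S : Set F) (x : F) (d : ℕ) : Prop :=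
  ∀ Q : F[X], Q ≠ 0 → (∀ i, Q.coeff i ∈ S) → Q.natDegree < d → Q.eval x ≠ 0

/-- Coefficients of the quotient by `X - z`. -/
lemma h9_coeff_divByMonic_mem (E : IntermediateField k F) {Q : F[X]} {z : F}
    (hQ : ∀ i, Q.coeff i ∈ E) (hz : z ∈ E) (n : ℕ) : (Q /ₘ (X - C z)).coeff n ∈ E := by
  rw [coeff_divByMonic_X_sub_C]
  exact sum_mem fun i _ => mul_mem (pow_mem hz _) (hQ i)

/-- A monic polynomial of degree `p` with coefficients in `E`, vanishing at `x` of degree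
`≥ p` over `E`, has no root in `E` (`2 ≤ p`). -/
lemma h9_no_root (E : IntermediateField k F) {p : ℕ} (hp : 2 ≤ p) {x : F}
    (hx : DegGe (E : Set F) x p) {Q : F[X]} (hQm : Q.Monic) (hQd : Q.natDegree = p)
    (hQ : ∀ i, Q.coeff i ∈ E) (hQx : Q.eval x = 0) {z : F} (hz : z ∈ E) : Q.eval z ≠ 0 := by
  intro hQz
  have hxz : x ≠ z := by
    rintro rfl
    have h1 : (X - C x : F[X]).eval x ≠ 0 := by
      refine hx _ (X_sub_C_ne_zero x) (fun i => ?_) (by rw [natDegree_X_sub_C]; omega)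
      rw [coeff_sub]
      refine sub_mem ?_ ?_
      · rw [coeff_X]; split_ifs
        exacts [E.one_mem, E.zero_mem]
      · rw [coeff_C]; split_ifs
        exacts [hz, E.zero_mem]
    simp at h1
  have hdiv : (X - C z) * (Q /ₘ (X - C z)) = Q := mul_divByMonic_eq_iff_isRoot.mpr hQz
  set g := Q /ₘ (X - C z) with hg
  have hg0 : g ≠ 0 := by
    rintro h0
    rw [h0, mul_zero] at hdiv
    exact hQm.ne_zero hdiv.symm
  have hgd : g.natDegree < p := by
    have h1 : g.natDegree = Q.natDegree - (X - C z : F[X]).natDegree :=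
      natDegree_divByMonic Q (monic_X_sub_C z)
    rw [natDegree_X_sub_C, hQd] at h1
    omega
  have hgx : g.eval x ≠ 0 := hx g hg0 (h9_coeff_divByMonic_mem E hQ hz) hgd
  have : Q.eval x = (x - z) * g.eval x := by
    rw [← hdiv]; simp
  rw [hQx] at this
  rcases mul_eq_zero.mp this.symm with h | h
  · exact hxz (sub_eq_zero.mp h)
  · exact hgx h

/-- Lift a monic polynomial with coefficients in `B` to `B[X]`. -/
lemma h9_lift (B : IntermediateField k F) {P : F[X]} (hPm : P.Monic)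
    (hPB : ∀ i, P.coeff i ∈ B) :
    ∃ P' : (↥B)[X], P'.map (algebraMap B F) = P ∧ P'.natDegree = P.natDegree ∧ P'.Monic := by
  have h : P ∈ Polynomial.lifts (algebraMap B F) := by
    rw [Polynomial.lifts_iff_coeff_lifts]
    intro n
    exact ⟨⟨P.coeff n, hPB n⟩, rfl⟩
  exact Polynomial.lifts_and_natDegree_eq_and_monic h hPm

/-- **The dichotomy at prime level** (abstract form). -/
theorem dichotomy (θ : F →ₐ[k] F) {p : ℕ} (hp : 2 ≤ p) {x : F}
    (hx : DegGe (θ.fieldRange : Set F) x p)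
    {P : F[X]} (hPm : P.Monic) (hPd : P.natDegree = p + 1)
    (hPB : ∀ i, P.coeff i ∈ k⟮θ x⟯) (hPx : P.eval x = 0) (hPz : P.eval (θ (θ x)) = 0) :
    θ x ∈ k⟮x⟯ ∨
      ((minpoly ↥(k⟮θ x⟯) x).natDegree = p + 1 ∧
        (minpoly ↥(k⟮x⟯) (θ x)).natDegree = p + 1) := by
  have hyE : θ x ∈ θ.fieldRange := ⟨x, rfl⟩
  have hzE : θ (θ x) ∈ θ.fieldRange := ⟨θ x, rfl⟩
  have hBE : k⟮θ x⟯ ≤ θ.fieldRange := by
    rw [IntermediateField.adjoin_le_iff]
    intro t ht
    rw [Set.mem_singleton_iff] at ht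
    rw [ht]; exact hyE
  have hAB : (k⟮x⟯).map θ = k⟮θ x⟯ := by
    rw [IntermediateField.adjoin_map, Set.image_singleton]
  obtain ⟨P', hP'map, hP'd, hP'm⟩ := h9_lift (k⟮θ x⟯) hPm hPB
  have hP'x : aeval x P' = 0 := by
    rw [aeval_def, eval₂_eq_eval_map, hP'map]; exact hPx
  have hP'z : aeval (θ (θ x)) P' = 0 := by
    rw [aeval_def, eval₂_eq_eval_map, hP'map]; exact hPz
  have hxint : IsIntegral (↥(k⟮θ x⟯)) x := ⟨P', hP'm, hP'x⟩
  have hmP : minpoly (↥(k⟮θ x⟯)) x ∣ P' := minpoly.dvd _ x hP'x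
  have hmm : (minpoly (↥(k⟮θ x⟯)) x).Monic := minpoly.monic hxint
  have hmF_coeff : ∀ i, ((minpoly (↥(k⟮θ x⟯)) x).map (algebraMap (↥(k⟮θ x⟯)) F)).coeff i ∈
      θ.fieldRange := fun i => by
    rw [coeff_map]; exact hBE ((minpoly (↥(k⟮θ x⟯)) x).coeff i).2
  have hmF_x : ((minpoly (↥(k⟮θ x⟯)) x).map (algebraMap (↥(k⟮θ x⟯)) F)).eval x = 0 := by
    rw [← eval₂_eq_eval_map, ← aeval_def]; exact minpoly.aeval _ x
  have hmd_ge : p ≤ (minpoly (↥(k⟮θ x⟯)) x).natDegree := by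
    by_contra hlt
    push Not at hlt
    refine hx _ ?_ hmF_coeff ?_ hmF_x
    · exact (Polynomial.map_ne_zero_iff (algebraMap (↥(k⟮θ x⟯)) F).injective).mpr hmm.ne_zero
    · rw [natDegree_map]; exact hlt
  have hmd_le : (minpoly (↥(k⟮θ x⟯)) x).natDegree ≤ p + 1 := by
    rw [← hPd, ← hP'd]; exact natDegree_le_of_dvd hmP hP'm.ne_zero
  rcases Nat.lt_or_ge (minpoly (↥(k⟮θ x⟯)) x).natDegree (p + 1) with hlt | hge
  · left
    have hmd : (minpoly (↥(k⟮θ x⟯)) x).natDegree = p := by omega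
    obtain ⟨c, hc⟩ := hmP
    have hcm : c.Monic := hmm.of_mul_monic_left (hc ▸ hP'm)
    have hcd : c.natDegree = 1 := by
      have h1 := hmm.natDegree_mul hcm
      rw [← hc, hP'd, hPd, hmd] at h1; omega
    have hmz : aeval (θ (θ x)) (minpoly (↥(k⟮θ x⟯)) x) ≠ 0 := by
      have h1 := h9_no_root θ.fieldRange hp hx (hmm.map (algebraMap (↥(k⟮θ x⟯)) F))
        (by rw [natDegree_map]; exact hmd) hmF_coeff hmF_x hzE
      rwa [← eval₂_eq_eval_map, ← aeval_def] at h1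
    have hcz : aeval (θ (θ x)) c = 0 := by
      have h := hP'z
      rw [hc, map_mul] at h
      exact (mul_eq_zero.mp h).resolve_left hmz
    have hzB : θ (θ x) ∈ k⟮θ x⟯ := by
      have hc' : c = X + C (c.coeff 0) := hcm.eq_X_add_C hcd
      rw [hc', map_add, aeval_X, aeval_C] at hcz
      have h1 : θ (θ x) = -(algebraMap (↥(k⟮θ x⟯)) F (c.coeff 0)) :=
        eq_neg_of_add_eq_zero_left hcz
      rw [h1]; exact (k⟮θ x⟯).neg_mem (c.coeff 0).2
    rw [← hAB] at hzB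
    obtain ⟨a, ha, haz⟩ := hzB
    have h1 : a = θ x := θ.injective haz
    rw [← h1]; exact ha
  · right
    have hmd : (minpoly (↥(k⟮θ x⟯)) x).natDegree = p + 1 := by omega
    have hmP' : P' = minpoly (↥(k⟮θ x⟯)) x :=
      eq_of_monic_of_dvd_of_natDegree_le hmm hP'm hmP (by rw [hP'd, hPd, hmd])
    refine ⟨hmd, ?_⟩
    have hmirr : Irreducible (minpoly (↥(k⟮θ x⟯)) x) := minpoly.irreducible hxint
    have hmz : aeval (θ (θ x)) (minpoly (↥(k⟮θ x⟯)) x) = 0 := hmP' ▸ hP'z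
    have hminz : minpoly (↥(k⟮θ x⟯)) x = minpoly (↥(k⟮θ x⟯)) (θ (θ x)) :=
      minpoly.eq_of_irreducible_of_monic hmirr hmz hmm
    -- the isomorphism `k(x) ≃ k(y)` induced by `θ`
    let e : ↥(k⟮x⟯) ≃ₐ[k] ↥(k⟮θ x⟯) :=
      (IntermediateField.equivMap (k⟮x⟯) θ).trans (IntermediateField.equivOfEq hAB)
    have hcomp : (algebraMap (↥(k⟮θ x⟯)) F).comp (e : ↥(k⟮x⟯) →+* ↥(k⟮θ x⟯)) =
        (θ : F →+* F).comp (algebraMap (↥(k⟮x⟯)) F) := by
      ext a; rfl
    have key : ∀ R : (↥(k⟮x⟯))[X],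
        θ (aeval (θ x) R) = aeval (θ (θ x)) (R.map (e : ↥(k⟮x⟯) →+* ↥(k⟮θ x⟯))) := fun R =>
      Polynomial.map_aeval_eq_aeval_map hcomp R (θ x)
    have hP₀ : aeval (θ x) (P'.map (e.symm : ↥(k⟮θ x⟯) →+* ↥(k⟮x⟯))) = 0 := by
      have h1 := key (P'.map (e.symm : ↥(k⟮θ x⟯) →+* ↥(k⟮x⟯)))
      rw [Polynomial.map_map] at h1
      have h2 : (e : ↥(k⟮x⟯) →+* ↥(k⟮θ x⟯)).comp (e.symm : ↥(k⟮θ x⟯) →+* ↥(k⟮x⟯)) =
          RingHom.id _ := by
        ext a; simp
      rw [h2, Polynomial.map_id, hP'z] at h1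
      exact (map_eq_zero θ).mp h1
    have hyint : IsIntegral (↥(k⟮x⟯)) (θ x) :=
      ⟨P'.map (e.symm : ↥(k⟮θ x⟯) →+* ↥(k⟮x⟯)), hP'm.map _, hP₀⟩
    have hle : (minpoly (↥(k⟮x⟯)) (θ x)).natDegree ≤ p + 1 := by
      have h1 := natDegree_le_of_dvd (minpoly.dvd _ (θ x) hP₀) (hP'm.map _).ne_zero
      rwa [Polynomial.natDegree_map, hP'd, hPd] at h1
    have hge' : p + 1 ≤ (minpoly (↥(k⟮x⟯)) (θ x)).natDegree := by
      have hn := minpoly.monic hyint
      have h1 : aeval (θ (θ x))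
          ((minpoly (↥(k⟮x⟯)) (θ x)).map (e : ↥(k⟮x⟯) →+* ↥(k⟮θ x⟯))) = 0 := by
        rw [← key, minpoly.aeval, map_zero]
      have h2 := natDegree_le_of_dvd (minpoly.dvd _ (θ (θ x)) h1) (hn.map _).ne_zero
      rwa [← hminz, hmd, Polynomial.natDegree_map] at h2
    omega

end Fermat.Agent.S28.Deg.H9
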