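import Fermat.Agent.S28.Deg.H9_Dichotomy
import Fermat.Agent.S28.Deg.H8_T1

/-!
# S28, package DEG (helper9): the dichotomy at prime level for `j mod ℓ`

Instance of `H9.dichotomy` for `F = k((q))`, `θ = (q ↦ q^p)`, `x = j`: given a monic polynomial
`P` of degree `p + 1` with coefficients in `k(j_p)` and roots `j`, `j_{p²}`
(`P = Φ_p(X; j_p)`), either `j_p ∈ k(j)` or `[k(j, j_p) : k(j)] = p + 1 = [k(j, j_p) : k(j_p)]`.
-/

set_option autoImplicit false

open Polynomial IntermediateField ModularCurve

namespace Fermat.Agent.S28.Deg.H9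

open Fermat.Agent.S28.Deg.H8

section general

variable {k F : Type*} [Field k] [Field F] [Algebra k F]

/-- Linear independence of the first `p` powers gives `DegGe`. -/
lemma degGe_of_linearIndependent (E : Subfield F) {x : F} {p : ℕ}
    (h : LinearIndependent E (fun i : Fin p => x ^ (i : ℕ))) : DegGe (E : Set F) x p := by
  intro Q hQ0 hQE hQd hQx
  apply hQ0
  rw [Fintype.linearIndependent_iff] at h
  have hsum : ∑ i : Fin p, (⟨Q.coeff i, hQE i⟩ : E) • x ^ (i : ℕ) = 0 := by
    rw [eval_eq_sum_range' hQd, ← Fin.sum_univ_eq_sum_range (fun i => Q.coeff i * x ^ i) p] at hQx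
    exact hQx
  have hz := h _ hsum
  ext i
  rw [coeff_zero]
  by_cases hi : i < p
  · have := hz ⟨i, hi⟩
    exact congrArg Subtype.val this
  · exact coeff_eq_zero_of_natDegree_lt (by omega)

/-- `[A(y) : A]` as a relative degree. -/
lemma relfinrank_adjoin_simple (A : IntermediateField k F) {y : F} (hy : IsIntegral A y) :
    relfinrank A ((A⟮y⟯).restrictScalars k) = (minpoly A y).natDegree := by
  have hle : A ≤ (A⟮y⟯).restrictScalars k := by
    intro a ha
    exact (A⟮y⟯).algebraMap_mem ⟨a, ha⟩
  rw [relfinrank_eq_finrank_of_le hle, ← IntermediateField.adjoin.finrank hy]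
  rfl

lemma adjoin_pair_eq (x y : F) :
    (k⟮x, y⟯ : IntermediateField k F) = ((k⟮x⟯)⟮y⟯).restrictScalars k := by
  rw [IntermediateField.adjoin_adjoin_left, Set.union_comm, Set.union_singleton]

lemma adjoin_pair_eq' (x y : F) :
    (k⟮x, y⟯ : IntermediateField k F) = ((k⟮y⟯)⟮x⟯).restrictScalars k := by
  rw [IntermediateField.adjoin_adjoin_left, Set.union_singleton]

end general

section laurent

variable (k : Type) [Field k] (p : ℕ) [NeZero p]

/-- `j` has degree at least `p` over `k((q^p))`. -/
theorem degGe_jq : DegGe ((qExpandAlgHomC k p).fieldRange : Set (LaurentSeries k)) (jqModC k) p :=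
  degGe_of_linearIndependent (qExpand k p).fieldRange
    (linearIndependent_pow_of_order_neg_one p _ le_rfl (jqModC k) (jqModC_ne_zero k)
      (order_jqModC k))

/-- At prime level, `k(j_d : d ∣ p) = k(j, j_p)`. -/
theorem full_prime_eq (hp : p.Prime) :
    modularFunctionFieldFullC k p = k⟮jqModC k, qExpand k p (jqModC k)⟯ := by
  apply le_antisymm
  · rw [modularFunctionFieldFullC, adjoin_le_iff]
    rintro x ⟨d, hne, hdvd, rfl⟩
    rcases (Nat.dvd_prime hp).mp hdvd with h1 | h1
    · subst h1
      rw [qExpand_one_apply]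
      exact subset_adjoin k _ (Set.mem_insert _ _)
    · subst h1
      exact subset_adjoin k _ (Set.mem_insert_of_mem _ rfl)
  · rw [adjoin_le_iff]
    rintro x (rfl | rfl)
    · exact jqModC_mem_full k p
    · exact jqModCd_mem_full k p dvd_rfl

/-- **Dichotomy at prime level** for `j mod ℓ`. -/
theorem prime_dichotomy (hp : p.Prime) {P : (LaurentSeries k)[X]} (hPm : P.Monic)
    (hPd : P.natDegree = p + 1) (hPB : ∀ i, P.coeff i ∈ jbdField k p)
    (hPx : P.eval (jqModC k) = 0)
    (hPz : P.eval (qExpand k p (qExpand k p (jqModC k))) = 0) :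
    qExpand k p (jqModC k) ∈ jbField k ∨
      (relfinrank (jbField k) (modularFunctionFieldFullC k p) = p + 1 ∧
        relfinrank (jbdField k p) (modularFunctionFieldFullC k p) = p + 1) := by
  rcases dichotomy (qExpandAlgHomC k p) hp.two_le (degGe_jq k p) hPm hPd hPB hPx hPz with
    h | ⟨h1, h2⟩
  · exact Or.inl h
  · right
    have hxint : IsIntegral (↥(jbdField k p)) (jqModC k) := by
      by_contra hcon
      rw [jbdField] at hcon
      rw [qExpandAlgHomC_apply, minpoly.eq_zero hcon] at h1
      simp at h1
    have hyint : IsIntegral (↥(jbField k)) (qExpand k p (jqModC k)) := by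
      by_contra hcon
      rw [jbField] at hcon
      rw [qExpandAlgHomC_apply, minpoly.eq_zero hcon] at h2
      simp at h2
    constructor
    · rw [full_prime_eq k p hp, adjoin_pair_eq, ← h2]
      exact relfinrank_adjoin_simple (jbField k) hyint
    · rw [full_prime_eq k p hp, adjoin_pair_eq', ← h1]
      exact relfinrank_adjoin_simple (jbdField k p) hxint

end laurent

end Fermat.Agent.S28.Deg.H9
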